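import Mathlib

/-!
Linear relations between matrices over a domain persist over bigger fields.
-/

set_option autoImplicit false

namespace Fermat.Agent.NewPoint

theorem exists_factor {Q : Type*} [Field Q] {m n r : Type*} [Fintype m] [Fintype n] [Fintype r]
    [DecidableEq m] [DecidableEq n] [DecidableEq r]
    (C : Matrix m r Q) (E : Matrix n r Q)
    (h : ∀ x, C.mulVec x = 0 → E.mulVec x = 0) : ∃ B : Matrix n m Q, E = B * C := by
  let c := Matrix.toLin' C
  let e := Matrix.toLin' E
  have hker : LinearMap.ker c ≤ LinearMap.ker e := by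
    intro x hx
    rw [LinearMap.mem_ker] at hx ⊢
    exact h x hx
  let g₀ : LinearMap.range c →ₗ[Q] (n → Q) :=
    ((LinearMap.ker c).liftQ e hker).comp c.quotKerEquivRange.symm.toLinearMap
  obtain ⟨g, hg⟩ := LinearMap.exists_extend g₀
  have hgc : ∀ x, g (c x) = e x := by
    intro x
    have h1 := LinearMap.congr_fun hg ⟨c x, ⟨x, rfl⟩⟩
    have h2 : c.quotKerEquivRange.symm ⟨c x, ⟨x, rfl⟩⟩ = (LinearMap.ker c).mkQ x := by
      rw [LinearEquiv.symm_apply_eq]
      rfl
    have h3 : g₀ ⟨c x, ⟨x, rfl⟩⟩ = e x := by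
      show (LinearMap.ker c).liftQ e hker (c.quotKerEquivRange.symm ⟨c x, ⟨x, rfl⟩⟩) = e x
      rw [h2]
      rfl
    rw [← h3]
    exact h1
  refine ⟨LinearMap.toMatrix' g, ?_⟩
  apply Matrix.toLin'.injective
  rw [Matrix.toLin'_mul, Matrix.toLin'_toMatrix']
  refine LinearMap.ext fun x => ?_
  exact (hgc x).symm

theorem map_mulVec_apply {A Q : Type*} [CommRing A] [CommRing Q] (f : A →+* Q)
    {k r : Type*} [Fintype r] (B : Matrix k r A) (z : r → A) (i : k) :
    (B.map f).mulVec (fun j => f (z j)) i = f (B.mulVec z i) := by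
  simp [Matrix.mulVec, dotProduct]

theorem relation_fractionRing {A Q : Type*} [CommRing A] [IsDomain A] [Field Q] [Algebra A Q]
    [IsFractionRing A Q] {m n r : Type*} [Fintype m] [Fintype n] [Fintype r]
    (C : Matrix m r A) (E : Matrix n r A)
    (h : ∀ x, C.mulVec x = 0 → E.mulVec x = 0) (x : r → Q)
    (hx : (C.map (algebraMap A Q)).mulVec x = 0) : (E.map (algebraMap A Q)).mulVec x = 0 := by
  have hinj : Function.Injective (algebraMap A Q) := IsFractionRing.injective A Q
  obtain ⟨d, hd⟩ := IsLocalization.exist_integer_multiples_of_finite (nonZeroDivisors A) x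
  choose z hz using hd
  have hd0 : algebraMap A Q d ≠ 0 := by
    intro h
    exact nonZeroDivisors.coe_ne_zero d (hinj (by rw [h, map_zero]))
  have hz' : (fun j => algebraMap A Q (z j)) = algebraMap A Q d • x := by
    ext j
    rw [hz j, Algebra.smul_def]
    rfl
  have h1 : C.mulVec z = 0 := by
    ext i
    apply hinj
    rw [← map_mulVec_apply, hz', Matrix.mulVec_smul, hx]
    simp
  have h2 := h z h1
  have h3 : (E.map (algebraMap A Q)).mulVec (algebraMap A Q d • x) = 0 := by
    rw [← hz']
    ext i
    rw [map_mulVec_apply, h2]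
    simp
  rw [Matrix.mulVec_smul] at h3
  exact (smul_eq_zero.mp h3).resolve_left hd0

/-- A linear relation `C x = 0 → E x = 0` over a domain `A` persists over every field
containing `A`. -/
theorem relation_baseChange {A K : Type*} [CommRing A] [IsDomain A] [Field K] (f : A →+* K)
    (hf : Function.Injective f) {m n r : Type*} [Fintype m] [Fintype n] [Fintype r]
    [DecidableEq m] [DecidableEq n] [DecidableEq r]
    (C : Matrix m r A) (E : Matrix n r A)
    (h : ∀ x, C.mulVec x = 0 → E.mulVec x = 0) (x : r → K)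
    (hx : (C.map f).mulVec x = 0) : (E.map f).mulVec x = 0 := by
  let Q := FractionRing A
  obtain ⟨B, hB⟩ := exists_factor (C.map (algebraMap A Q)) (E.map (algebraMap A Q))
    (relation_fractionRing C E h)
  let g : Q →+* K := IsFractionRing.lift hf
  have hg : g.comp (algebraMap A Q) = f := by
    ext a
    exact IsFractionRing.lift_algebraMap hf a
  have h1 : E.map f = (B.map g) * (C.map f) := by
    have h2 := congrArg (fun X : Matrix n r Q => X.map g) hB
    simp only [Matrix.map_mul, Matrix.map_map] at h2
    have h3 : (g : Q → K) ∘ (algebraMap A Q) = f := by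
      rw [← hg]; rfl
    rw [h3] at h2
    exact h2
  rw [h1, ← Matrix.mulVec_mulVec, hx, Matrix.mulVec_zero]

end Fermat.Agent.NewPoint
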