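import Fermat.Agent.HGModule.EigenVec
import Fermat.Agent.HGModule.EigenChar
import Fermat.Prelude.Def_CuspForm_HeckeLocal

/-!
# Every character of the Hecke algebra comes from a normalised eigenform
-/

set_option autoImplicit false

open CongruenceSubgroup ModularFormClass CuspForm
open scoped TensorProduct

noncomputable section

namespace Fermat.Agent.NewPoint

open Fermat.Agent.DS Fermat.Agent.HGModule

/-- A ring homomorphism to an algebraically closed field extends to integral extensions. -/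
theorem exists_ringHom_extension {A B : Type*} [CommRing A] [CommRing B] (f : A →+* B)
    (hint : f.IsIntegral) {Ω : Type*} [Field Ω] [IsAlgClosed Ω] (ψ : A →+* Ω)
    (hker : RingHom.ker f ≤ RingHom.ker ψ) :
    ∃ Ψ : B →+* Ω, Ψ.comp f = ψ := by
  let _ : Algebra A B := f.toAlgebra
  have : Algebra.IsIntegral A B := ⟨hint⟩
  have hP : (RingHom.ker ψ).IsPrime := RingHom.ker_isPrime ψ
  obtain ⟨Q, -, hQ, hQP⟩ := Ideal.exists_ideal_over_prime_of_isIntegral (S := B) (RingHom.ker ψ) ⊥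
    (by
      intro x hx
      rw [Ideal.mem_comap, Ideal.mem_bot] at hx
      exact hker hx)
  let A' := A ⧸ RingHom.ker ψ
  let B' := B ⧸ Q
  have hA' : IsDomain A' := Ideal.Quotient.isDomain _
  have hB' : IsDomain B' := Ideal.Quotient.isDomain _
  let i : A' →+* B' := Ideal.quotientMap Q f (by
    rw [← hQP]; exact le_rfl)
  have hi : Function.Injective i := Ideal.quotientMap_injective' (by
    rw [← hQP]; exact le_rfl)
  let _ : Algebra A' B' := i.toAlgebra
  let ψ' : A' →+* Ω := RingHom.kerLift ψ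
  have hψ' : Function.Injective ψ' := RingHom.kerLift_injective ψ
  let _ : Algebra A' Ω := ψ'.toAlgebra
  have h1 : Module.IsTorsionFree A' B' := by
    rw [Module.isTorsionFree_iff_algebraMap_injective]
    exact hi
  have h2 : Module.IsTorsionFree A' Ω := by
    rw [Module.isTorsionFree_iff_algebraMap_injective]
    exact hψ'
  have h3 : Algebra.IsIntegral A' B' := by
    constructor
    intro x
    obtain ⟨b, rfl⟩ := Ideal.Quotient.mk_surjective x
    obtain ⟨P, hPm, hP0⟩ := hint b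
    refine ⟨P.map (Ideal.Quotient.mk (RingHom.ker ψ)), hPm.map _, ?_⟩
    rw [Polynomial.eval₂_map]
    have h4 : (algebraMap A' B').comp (Ideal.Quotient.mk (RingHom.ker ψ)) =
        (Ideal.Quotient.mk Q).comp f := by
      ext x
      rfl
    rw [h4, ← Polynomial.hom_eval₂, hP0, map_zero]
  let Ψ : B' →ₐ[A'] Ω := IsAlgClosed.lift
  refine ⟨(Ψ : B' →+* Ω).comp (Ideal.Quotient.mk Q), ?_⟩
  ext a
  have h5 := Ψ.commutes (Ideal.Quotient.mk (RingHom.ker ψ) a)
  exact h5

variable (N : ℕ) [NeZero N]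

/-- linear independence over `ℂ` of a `ℤ`-basis of the lattice of forms with integral
coefficients. -/
theorem sum_ne_zero_of_basis {k : ℤ} {r : ℕ} (b : Module.Basis (Fin r) ℤ (intLattice N k))
    (w : Fin r → ℂ) (h : ∑ i, w i • ((b i : intLattice N k) : CuspForm (Gamma0 N) k) = 0) :
    w = 0 := by
  classical
  -- integral coefficients
  have hc : ∀ (f : intLattice N k) (n : ℕ), ∃ c : ℤ, qCoeff (f : CuspForm (Gamma0 N) k) n = c :=
    fun f n => mem_intLattice.mp f.2 n
  choose c hc using hc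
  let B := (k * (Gamma0 N).index).toNat / 12
  let φ : intLattice N k →ₗ[ℤ] (Fin (B + 1) → ℤ) :=
    { toFun := fun f n => c f n
      map_add' := fun f g => by
        ext n
        have h1 := (coeffL N k n).map_add (f : CuspForm (Gamma0 N) k) g
        simp only [coeffL_apply] at h1
        rw [hc f, hc g] at h1
        have h2 := hc (f + g) n
        rw [Submodule.coe_add] at h2
        rw [h1] at h2
        rw [Pi.add_apply]
        exact_mod_cast h2.symm
      map_smul' := fun m f => by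
        ext n
        have h1 := (coeffL N k n).map_smul (m : ℂ) (f : CuspForm (Gamma0 N) k)
        simp only [coeffL_apply] at h1
        rw [hc f, Int.cast_smul_eq_zsmul] at h1
        have h2 := hc (m • f) n
        rw [Submodule.coe_smul] at h2
        rw [h1, smul_eq_mul] at h2
        rw [Pi.smul_apply]
        simp only [RingHom.id_apply, smul_eq_mul]
        exact_mod_cast h2.symm }
  have hφ : ∀ f n, φ f n = c f n := fun f n => rfl
  have hinj : Function.Injective φ := by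
    refine (injective_iff_map_eq_zero _).mpr fun f hf => ?_
    apply Subtype.ext
    have hmf : (ModularFormClass.modularForm (f : CuspForm (Gamma0 N) k) :
        ModularForm (Gamma0 N) k) = 0 := by
      refine ModularForm.sturm_bound_Gamma0 N _ fun n hn ↦ ?_
      have h1 : qCoeff (⇑(f : CuspForm (Gamma0 N) k)) n = 0 := by
        rw [hc f n]
        have h2 := congrFun hf ⟨n, Nat.lt_succ_of_le hn⟩
        rw [hφ] at h2
        rw [h2]
        simp
      exact h1
    have hcoe : (⇑(f : CuspForm (Gamma0 N) k) : UpperHalfPlane → ℂ) = 0 := by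
      have := congrArg (fun F : ModularForm (Gamma0 N) k ↦ (⇑F : UpperHalfPlane → ℂ)) hmf
      simpa using this
    exact DFunLike.coe_injective (hcoe.trans FunLike.coe_zero.symm)
  have hflat : Function.Injective (LinearMap.lTensor ℂ φ) :=
    Module.Flat.lTensor_preserves_injective_linearMap _ hinj
  let e := (TensorProduct.piScalarRight ℤ ℂ ℂ (Fin (B + 1)))
  have h1 : LinearMap.lTensor ℂ φ (∑ i, w i ⊗ₜ[ℤ] b i) = 0 := by
    apply e.injective
    rw [map_zero, map_sum, map_sum]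
    ext n
    have h2 := congrArg (coeffL N k n) h
    rw [map_sum, map_zero] at h2
    rw [Finset.sum_apply]
    refine Eq.trans ?_ h2
    refine Finset.sum_congr rfl fun i _ => ?_
    rw [map_smul, coeffL_apply, hc, LinearMap.lTensor_tmul]
    simp [e, hφ, mul_comm]
  have h3 : (∑ i, w i ⊗ₜ[ℤ] b i : ℂ ⊗[ℤ] intLattice N k) = 0 := by
    apply hflat
    rw [h1, map_zero]
  have h4 := congrArg (b.baseChange ℂ).repr h3
  rw [map_sum, map_zero] at h4
  ext i
  have h5 := DFunLike.congr_fun h4 i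
  rw [Finsupp.finsetSum_apply] at h5
  have h6 : ∀ j, ((b.baseChange ℂ).repr (w j ⊗ₜ[ℤ] b j)) i = if j = i then w j else 0 := by
    intro j
    rw [Module.Basis.baseChange_repr_tmul]
    rw [Module.Basis.repr_self, Finsupp.single_apply]
    split_ifs <;> simp
  rw [Finset.sum_congr rfl fun j _ => h6 j, Finset.sum_ite_eq' Finset.univ i] at h5
  simpa using h5

theorem heckeAlgebra_le {N : ℕ} [NeZero N] {k : ℤ} {S S' : Set ℕ} (h : S ⊆ S') :
    heckeAlgebra N k S' ≤ heckeAlgebra N k S := by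
  refine Algebra.adjoin_mono ?_
  rintro t (⟨ℓ, hℓ, hℓN, hℓS, rfl⟩ | ⟨q, hqN, hq, hqS, rfl⟩)
  · exact Or.inl ⟨ℓ, hℓ, hℓN, fun h' => hℓS (h h'), rfl⟩
  · exact Or.inr ⟨q, hqN, hq, fun h' => hqS (h h'), rfl⟩

/-- the matrix of a Hecke operator on the basis of the integral lattice -/
theorem apply_basis {N : ℕ} [NeZero N] {r : ℕ} (b : Module.Basis (Fin r) ℤ (intLattice N 2))
    (Q : heckeAlgebra N 2 (∅ : Set ℕ) →+* Matrix (Fin r) (Fin r) ℤ)
    (hQ : ∀ t, Q t = LinearMap.toMatrixAlgEquiv b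
      (restrictHom (N := N) (k := 2) (by norm_num) ∅ t))
    (t : heckeAlgebra N 2 (∅ : Set ℕ)) (i : Fin r) :
    t.1 ((b i : intLattice N 2) : CuspForm (Gamma0 N) 2) =
        ∑ j, (Q t j i) • ((b j : intLattice N 2) : CuspForm (Gamma0 N) 2) := by
  have h1 := restrictHom_apply (N := N) (k := 2) (by norm_num) ∅ t (b i)
  rw [← h1]
  have h2 := b.sum_repr (restrictHom (N := N) (k := 2) (by norm_num) ∅ t (b i))
  have h3 := congrArg (fun x : intLattice N 2 => (x : CuspForm (Gamma0 N) 2)) h2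
  simp only [Submodule.coe_sum, Submodule.coe_smul] at h3
  rw [← h3]
  refine Finset.sum_congr rfl fun j _ => ?_
  rw [hQ, LinearMap.toMatrixAlgEquiv_apply]

theorem eigen_sum {V : Type*} [AddCommGroup V] [Module ℂ V] {r : ℕ} (e : Fin r → V)
    (T : Module.End ℂ V) (Q : Matrix (Fin r) (Fin r) ℤ) (w : Fin r → ℂ) (c : ℂ)
    (h1 : ∀ i, T (e i) = ∑ j, (Q j i) • e j)
    (hw : (Q.map (Int.castRingHom ℂ)).mulVec w = c • w) :
    T (∑ i, w i • e i) = c • ∑ i, w i • e i := by
  have h2 : T (∑ i, w i • e i) = ∑ j, (∑ i, (Q j i : ℂ) * w i) • e j := by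
    rw [map_sum]
    simp only [map_smul, h1, Finset.smul_sum, Finset.sum_smul]
    rw [Finset.sum_comm]
    refine Finset.sum_congr rfl fun j _ => Finset.sum_congr rfl fun i _ => ?_
    rw [← Int.cast_smul_eq_zsmul ℂ, smul_smul, mul_comm]
  rw [h2, Finset.smul_sum]
  refine Finset.sum_congr rfl fun j _ => ?_
  rw [smul_smul]
  congr 1
  have h3 := congrFun hw j
  simp only [Matrix.mulVec, dotProduct, Matrix.map_apply, Pi.smul_apply, smul_eq_mul,
    eq_intCast] at h3
  exact h3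

/-- characters of the full Hecke algebra have eigenvectors in the space of forms -/
theorem exists_eigenvector_form {N : ℕ} [NeZero N] (Ψ : heckeAlgebra N 2 (∅ : Set ℕ) →+* ℂ) :
    ∃ g : CuspForm (Gamma0 N) 2, g ≠ 0 ∧ ∀ t : heckeAlgebra N 2 (∅ : Set ℕ), t.1 g = Ψ t • g := by
  have hspan : HasIntegralStructure N 2 := Fermat.Agent.S23.result N
  have hfree : Module.Free ℤ (intLattice N 2) := intLattice.moduleFree N
  obtain ⟨r, ⟨b⟩⟩ : ∃ r, Nonempty (Module.Basis (Fin r) ℤ (intLattice N 2)) :=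
    ⟨_, ⟨Module.finBasis ℤ (intLattice N 2)⟩⟩
  obtain ⟨Q, hQd⟩ : ∃ Q : heckeAlgebra N 2 (∅ : Set ℕ) →+* Matrix (Fin r) (Fin r) ℤ,
      ∀ t, Q t = LinearMap.toMatrixAlgEquiv b (restrictHom (N := N) (k := 2) (by norm_num) ∅ t) :=
    ⟨((LinearMap.toMatrixAlgEquiv b).toAlgHom.toRingHom).comp
      (restrictHom (N := N) (k := 2) (by norm_num) ∅).toRingHom, fun t => rfl⟩
  have hQ : Function.Injective Q := by
    intro x y hxy
    rw [hQd, hQd] at hxy
    exact restrictHom_injective (by norm_num) ∅ hspan ((LinearMap.toMatrixAlgEquiv b).injective hxy)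
  obtain ⟨w, hw0, hw⟩ := exists_eigenvector Q hQ Ψ
  exact ⟨∑ i, w i • ((b i : intLattice N 2) : CuspForm (Gamma0 N) 2),
    fun h => hw0 (sum_ne_zero_of_basis N b w h),
    fun t => eigen_sum _ t.1 (Q t) w (Ψ t) (apply_basis b Q hQd t) (hw t)⟩

/-- extension of characters to the full Hecke algebra -/
theorem exists_char_extension {N : ℕ} [NeZero N] {S : Set ℕ}
    (ψ : heckeAlgebra N 2 S →+* ℂ) :
    ∃ Ψ : heckeAlgebra N 2 (∅ : Set ℕ) →+* ℂ,
      ∀ t, Ψ (Subalgebra.inclusion (heckeAlgebra_le (Set.empty_subset S)) t) = ψ t := by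
  have hspan : HasIntegralStructure N 2 := Fermat.Agent.S23.result N
  have hk : (1 : ℤ) ≤ 2 := by norm_num
  let f : heckeAlgebra N 2 S →+* heckeAlgebra N 2 (∅ : Set ℕ) :=
    (Subalgebra.inclusion (heckeAlgebra_le (Set.empty_subset S))).toRingHom
  have hfinj : Function.Injective f := Subalgebra.inclusion_injective _
  have hint : f.IsIntegral := by
    intro t
    have h1 := heckeAlgebra_isIntegral (N := N) hk ∅ hspan t
    obtain ⟨P, hP, hP0⟩ := h1
    refine ⟨P.map (algebraMap ℤ (heckeAlgebra N 2 S)), hP.map _, ?_⟩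
    rw [Polynomial.eval₂_map]
    have h2 : f.comp (algebraMap ℤ (heckeAlgebra N 2 S)) =
        algebraMap ℤ (heckeAlgebra N 2 (∅ : Set ℕ)) := RingHom.ext_int _ _
    rw [h2]
    exact hP0
  obtain ⟨Ψ, hΨ⟩ := exists_ringHom_extension f hint ψ (by
    rw [(RingHom.injective_iff_ker_eq_bot f).mp hfinj]
    exact bot_le)
  exact ⟨Ψ, fun t => DFunLike.congr_fun hΨ t⟩

/-- normalisation of an eigenform for the full Hecke algebra -/
theorem exists_normalized {N : ℕ} [NeZero N] (Ψ : heckeAlgebra N 2 (∅ : Set ℕ) →+* ℂ)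
    (g : CuspForm (Gamma0 N) 2) (hg0 : g ≠ 0)
    (hg : ∀ t : heckeAlgebra N 2 (∅ : Set ℕ), t.1 g = Ψ t • g) :
    ∃ h : CuspForm (Gamma0 N) 2, h.IsNormalizedEigenform ∧
      ∀ t : heckeAlgebra N 2 (∅ : Set ℕ), t.1 h = Ψ t • h := by
  have hT : ∀ (p : ℕ) (hp : p.Prime) (hpN : ¬ p ∣ N), heckeTLin 2 hp hpN g =
      Ψ (heckeAlgebra.T hp hpN (Set.notMem_empty p)) • g := fun p hp hpN =>
    hg (heckeAlgebra.T hp hpN (Set.notMem_empty p))
  have hU : ∀ (p : ℕ) (hp : p.Prime) (hpN : p ∣ N), heckeULin 2 hpN g =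
      Ψ (heckeAlgebra.U hp hpN (Set.notMem_empty p)) • g := fun p hp hpN =>
    hg (heckeAlgebra.U hp hpN (Set.notMem_empty p))
  have hg1 : qCoeff g 1 ≠ 0 := qCoeff_one_ne_zero_of_eigen g hg0
    (fun p hp hpN => ⟨_, hT p hp hpN⟩) (fun p hp hpN => ⟨_, hU p hp hpN⟩)
  have hh : ∀ t : heckeAlgebra N 2 (∅ : Set ℕ),
      t.1 ((qCoeff g 1)⁻¹ • g) = Ψ t • ((qCoeff g 1)⁻¹ • g) := by
    intro t
    rw [map_smul, hg, smul_comm]
  have hh1 : qCoeff (⇑((qCoeff g 1)⁻¹ • g)) 1 = 1 := by
    have := (coeffL N 2 1).map_smul (qCoeff g 1)⁻¹ g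
    simp only [coeffL_apply, smul_eq_mul] at this
    rw [this, inv_mul_cancel₀ hg1]
  exact ⟨(qCoeff g 1)⁻¹ • g, isNormalizedEigenform_of_eigen _ hh1
    (fun p hp hpN => ⟨_, hh (heckeAlgebra.T hp hpN (Set.notMem_empty p))⟩)
    (fun p hp hpN => ⟨_, hh (heckeAlgebra.U hp hpN (Set.notMem_empty p))⟩), hh⟩

/-- **Every character of the Hecke algebra `heckeAlgebra N 2 S` is the eigencharacter of a
normalised eigenform** (which is an eigenform for all Hecke operators, including those in `S`). -/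
theorem exists_eigenform_of_char {N : ℕ} [NeZero N] {S : Set ℕ}
    (ψ : heckeAlgebra N 2 S →+* ℂ) :
    ∃ h : CuspForm (Gamma0 N) 2, h.IsNormalizedEigenform ∧
      (∀ t : heckeAlgebra N 2 S, t.1 h = ψ t • h) ∧
      (∀ (ℓ : ℕ) (hℓ : ℓ.Prime) (hℓN : ¬ ℓ ∣ N) (hℓS : ℓ ∉ S),
        qCoeff h ℓ = ψ (heckeAlgebra.T hℓ hℓN hℓS)) ∧
      (∀ (q : ℕ) (hq : q.Prime) (hqN : q ∣ N) (hqS : q ∉ S),
        qCoeff h q = ψ (heckeAlgebra.U hq hqN hqS)) := by
  obtain ⟨Ψ, hΨ⟩ := exists_char_extension ψ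
  obtain ⟨g, hg0, hg⟩ := exists_eigenvector_form Ψ
  obtain ⟨h, hnorm, hh⟩ := exists_normalized Ψ g hg0 hg
  have hψ : ∀ t : heckeAlgebra N 2 S, t.1 h = ψ t • h := by
    intro t
    rw [← hΨ t]
    exact hh (Subalgebra.inclusion (heckeAlgebra_le (Set.empty_subset S)) t)
  have hcoef : ∀ (t : heckeAlgebra N 2 S), qCoeff (t.1 h) 1 = ψ t := by
    intro t
    rw [hψ]
    have := (coeffL N 2 1).map_smul (ψ t) h
    simp only [coeffL_apply, smul_eq_mul] at this
    rw [this, hnorm.qCoeff_one, mul_one]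
  refine ⟨h, hnorm, hψ, ?_, ?_⟩
  · intro ℓ hℓ hℓN hℓS
    rw [← hcoef]
    have h1 := qCoeff_heckeTLin (k := 2) hℓ hℓN h 1
    rw [one_mul, if_neg (by simpa using hℓ.one_lt.ne'), add_zero] at h1
    exact h1.symm
  · intro q hq hqN hqS
    rw [← hcoef]
    have h1 := qCoeff_heckeULin (k := 2) hq hqN h 1
    rw [one_mul] at h1
    exact h1.symm

end Fermat.Agent.NewPoint
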