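import Fermat.Agent.NewPoint.Good
import Fermat.Agent.NewPoint.OfChar
import Fermat.Prelude.Def_CuspForm_Newforms

/-!
The eigensystem of a newform of level `M` does not occur in a `HeckeGaloisModule` of level `N ∣ M`,
`N ≠ M`.
-/

set_option autoImplicit false

open scoped TensorProduct
open Polynomial IsLocalRing CongruenceSubgroup ModularFormClass CuspForm

namespace Fermat.Agent.NewPoint

open Fermat.Agent.QuadRep Fermat.Agent.HGModule Fermat.Agent.HeckeGal Fermat.Agent.HGAssembly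

/-- An eigenvector of a commutative ring of matrices with eigenvalues in (the image of) a domain
`R ⊆ K` defines a ring homomorphism to `R`. -/
theorem exists_char_of_eigenvector {A : Type*} [CommRing A] {r : ℕ} {K : Type*} [Field K]
    (Q : A →+* Matrix (Fin r) (Fin r) K) (v : Fin r → K) (hv : v ≠ 0)
    {R : Type*} [CommRing R] (i : R →+* K) (hi : Function.Injective i)
    (h : ∀ t : A, ∃ y : R, (Q t).mulVec v = i y • v) :
    ∃ ψ : A →+* R, ∀ t, (Q t).mulVec v = i (ψ t) • v := by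
  choose f hf using h
  have huniq : ∀ y y' : R, i y • v = i y' • v → y = y' := by
    intro y y' h
    rw [← sub_eq_zero, ← sub_smul] at h
    rcases smul_eq_zero.mp h with h1 | h1
    · exact hi (sub_eq_zero.mp h1)
    · exact absurd h1 hv
  refine ⟨{ toFun := f
            map_one' := huniq _ _ ?_
            map_mul' := fun s t => huniq _ _ ?_
            map_zero' := huniq _ _ ?_
            map_add' := fun s t => huniq _ _ ?_ }, hf⟩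
  · rw [← hf, map_one, map_one, Matrix.one_mulVec, one_smul]
  · rw [← hf, map_mul, map_mul, ← Matrix.mulVec_mulVec, hf, Matrix.mulVec_smul, hf, smul_smul,
      mul_comm]
  · rw [← hf, map_zero, map_zero, Matrix.zero_mulVec, zero_smul]
  · rw [← hf, map_add, map_add, Matrix.add_mulVec, hf, hf, add_smul]

theorem exists_eigenvalue_of_generators {N : ℕ} [NeZero N] {S : Set ℕ}
    (hNS : ∀ q : ℕ, q.Prime → q ∣ N → q ∈ S) {r : ℕ} {K : Type*} [Field K]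
    (Q : heckeAlgebra N 2 S →+* Matrix (Fin r) (Fin r) K) (v : Fin r → K)
    {R : Type*} [CommRing R] (i : R →+* K)
    (h : ∀ (ℓ : ℕ) (hℓ : ℓ.Prime) (hℓN : ¬ ℓ ∣ N) (hℓS : ℓ ∉ S),
      ∃ y : R, (Q (heckeAlgebra.T hℓ hℓN hℓS)).mulVec v = i y • v)
    (t : heckeAlgebra N 2 S) : ∃ y : R, (Q t).mulVec v = i y • v := by
  obtain ⟨t, ht⟩ := t
  induction ht using Algebra.adjoin_induction with
  | mem t ht =>
    rcases ht with ⟨ℓ, hℓ, hℓN, hℓS, rfl⟩ | ⟨q, hqN, hq, hqS, rfl⟩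
    · exact h ℓ hℓ hℓN hℓS
    · exact absurd (hNS q hq hqN) hqS
  | algebraMap n =>
    refine ⟨(n : R), ?_⟩
    have e : (⟨algebraMap ℤ _ n, Subalgebra.algebraMap_mem _ n⟩ : heckeAlgebra N 2 S) =
        (n : heckeAlgebra N 2 S) := rfl
    rw [e, map_intCast, map_intCast]
    ext j
    rw [← Matrix.diagonal_intCast, Matrix.mulVec_diagonal]
    rfl
  | add a b ha hb h1 h2 =>
    obtain ⟨x, hx⟩ := h1
    obtain ⟨y, hy⟩ := h2
    refine ⟨x + y, ?_⟩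
    have e : (⟨a + b, Subalgebra.add_mem _ ha hb⟩ : heckeAlgebra N 2 S) = ⟨a, ha⟩ + ⟨b, hb⟩ := rfl
    rw [e, map_add, Matrix.add_mulVec, hx, hy, map_add, add_smul]
  | mul a b ha hb h1 h2 =>
    obtain ⟨x, hx⟩ := h1
    obtain ⟨y, hy⟩ := h2
    refine ⟨x * y, ?_⟩
    have e : (⟨a * b, Subalgebra.mul_mem _ ha hb⟩ : heckeAlgebra N 2 S) = ⟨a, ha⟩ * ⟨b, hb⟩ := rfl
    rw [e, map_mul, ← Matrix.mulVec_mulVec, hy, Matrix.mulVec_smul, hx, smul_smul, map_mul,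
      mul_comm]

/-- The eigensystem of a newform does not occur at lower level. -/
theorem eigenvector_eq_zero
    (hD : ∀ (p : ℕ) [Fact p.Prime] (N : ℕ) [NeZero N] (S : Finset ℕ), p ∈ S →
      (∀ q : ℕ, q.Prime → q ∣ N → q ∈ S) → Nonempty (HeckeGaloisModule p N (↑S : Set ℕ)))
    {M N : ℕ} [NeZero M] [NeZero N] {g : CuspForm (Gamma0 M) 2} (hg : g.IsNewform)
    (hNM : N ∣ M) (hne : N ≠ M) (S : Finset ℕ) (hMS : ∀ q : ℕ, q.Prime → q ∣ M → q ∈ S)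
    (chig : heckeAlgebra M 2 (↑S : Set ℕ) →+* ℂ)
    (hchig : ∀ (ℓ : ℕ) (hℓ : ℓ.Prime) (hℓM : ¬ ℓ ∣ M) (hℓS : ℓ ∉ (↑S : Set ℕ)),
      chig (heckeAlgebra.T hℓ hℓM hℓS) = qCoeff g ℓ)
    {K : Type*} [Field K] (i : chig.range →+* K) (hi : Function.Injective i)
    {r : ℕ} (Q : heckeAlgebra N 2 (↑S : Set ℕ) →+* Matrix (Fin r) (Fin r) K) (v : Fin r → K)
    (hQ : ∀ (ℓ : ℕ) (hℓ : ℓ.Prime) (hℓN : ¬ ℓ ∣ N) (hℓM : ¬ ℓ ∣ M) (hℓS : ℓ ∉ (↑S : Set ℕ)),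
      (Q (heckeAlgebra.T hℓ hℓN hℓS)).mulVec v =
        i (chig.rangeRestrict (heckeAlgebra.T hℓ hℓM hℓS)) • v) : v = 0 := by
  by_contra hv
  have hM' : ∀ ℓ : ℕ, ℓ.Prime → ℓ ∉ (↑S : Set ℕ) → ¬ ℓ ∣ M := fun ℓ hℓ hℓS h =>
    hℓS (Finset.mem_coe.mpr (hMS ℓ hℓ h))
  have hNS : ∀ q : ℕ, q.Prime → q ∣ N → q ∈ (↑S : Set ℕ) := fun q hq h =>
    Finset.mem_coe.mpr (hMS q hq (h.trans hNM))
  have h1 := exists_eigenvalue_of_generators hNS Q v i (fun ℓ hℓ hℓN hℓS =>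
    ⟨_, hQ ℓ hℓ hℓN (hM' ℓ hℓ hℓS) hℓS⟩)
  obtain ⟨ψ, hψ⟩ := exists_char_of_eigenvector Q v hv i hi h1
  have hψT : ∀ (ℓ : ℕ) (hℓ : ℓ.Prime) (hℓN : ¬ ℓ ∣ N) (hℓS : ℓ ∉ (↑S : Set ℕ)),
      ((ψ (heckeAlgebra.T hℓ hℓN hℓS) : chig.range) : ℂ) = qCoeff g ℓ := by
    intro ℓ hℓ hℓN hℓS
    have h2 := hψ (heckeAlgebra.T hℓ hℓN hℓS)
    rw [hQ ℓ hℓ hℓN (hM' ℓ hℓ hℓS) hℓS, ← sub_eq_zero, ← sub_smul] at h2
    rcases smul_eq_zero.mp h2 with h3 | h3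
    · rw [← hi (sub_eq_zero.mp h3), ← hchig ℓ hℓ (hM' ℓ hℓ hℓS) hℓS]
      rfl
    · exact absurd h3 hv
  obtain ⟨h, hh, -, hT, -⟩ := exists_eigenform_of_char (chig.range.subtype.comp ψ)
  refine hg.2 N hNM hne ⟨h, hh, fun ℓ hℓ hℓM => ?_⟩
  have hℓN : ¬ ℓ ∣ N := fun h => hℓM (h.trans hNM)
  refine (qCoeff_eq_of_ae hD hg.1 hh S ?_ hℓ hℓM hℓN).symm
  intro q hq hqM hqN hqS
  have hqS' : q ∉ (↑S : Set ℕ) := fun h => hqS (Finset.mem_coe.mp h)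
  rw [hT q hq hqN hqS']
  exact (hψT q hq hqN hqS').symm

end Fermat.Agent.NewPoint
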