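import Fermat.Agent.NewPoint.Lattice
import Fermat.Agent.NewPoint.LinAlg
import Fermat.Agent.NewPoint.Occurs

/-!
S35 from `HeckeGaloisModule`s with degeneracy maps.
-/

set_option autoImplicit false

open scoped TensorProduct
open Polynomial IsLocalRing CongruenceSubgroup ModularFormClass CuspForm

namespace Fermat.Agent.NewPoint

open Fermat.Agent.QuadRep Fermat.Agent.HGModule Fermat.Agent.HeckeGal Fermat.Agent.HGAssembly

local notation "G" => (AlgebraicClosure ℚ ≃ₐ[ℚ] AlgebraicClosure ℚ)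

/-- Degeneracy maps `a, b : T_p J₀(M) → T_p J₀(N)` at a prime `q`, such that Frobenius elements
at `q` satisfy `(Φ² - q²)(Φ² - 1) = 0` on the common kernel. -/
structure NewAt (p : ℕ) [Fact p.Prime] (M : ℕ) [NeZero M] (S : Finset ℕ)
    (D : HeckeGaloisModule p M (↑S : Set ℕ)) (q : ℕ) : Type 1 where
  N : ℕ
  [neZero : NeZero N]
  dvd : N ∣ M
  ne : N ≠ M
  D' : HeckeGaloisModule p N (↑S : Set ℕ)
  a : (ℤ_[p] ⊗[ℤ] D.H) →ₗ[ℤ_[p]] (ℤ_[p] ⊗[ℤ] D'.H)
  b : (ℤ_[p] ⊗[ℤ] D.H) →ₗ[ℤ_[p]] (ℤ_[p] ⊗[ℤ] D'.H)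
  a_hecke : ∀ (ℓ : ℕ) (hℓ : ℓ.Prime) (hM : ¬ ℓ ∣ M) (hN : ¬ ℓ ∣ N) (hS : ℓ ∉ (↑S : Set ℕ))
    (x : ℤ_[p] ⊗[ℤ] D.H),
    a ((D.θ (heckeAlgebra.T hℓ hM hS)).baseChange ℤ_[p] x) =
      (D'.θ (heckeAlgebra.T hℓ hN hS)).baseChange ℤ_[p] (a x)
  b_hecke : ∀ (ℓ : ℕ) (hℓ : ℓ.Prime) (hM : ¬ ℓ ∣ M) (hN : ¬ ℓ ∣ N) (hS : ℓ ∉ (↑S : Set ℕ))
    (x : ℤ_[p] ⊗[ℤ] D.H),
    b ((D.θ (heckeAlgebra.T hℓ hM hS)).baseChange ℤ_[p] x) =
      (D'.θ (heckeAlgebra.T hℓ hN hS)).baseChange ℤ_[p] (b x)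
  frob : ∀ A : ValuationSubring (AlgebraicClosure ℚ), A.LiesOverPrime q →
    ∀ σ : G, A.IsFrobeniusAt σ q → ∀ x : ℤ_[p] ⊗[ℤ] D.H, a x = 0 → b x = 0 →
      D.ρ σ (D.ρ σ (D.ρ σ (D.ρ σ x) - x)) = ((q : ℤ_[p]) ^ 2) • (D.ρ σ (D.ρ σ x) - x)

attribute [instance] NewAt.neZero

/-- the polynomial `(X² - q²)(X² - 1)` -/
noncomputable def newPoly (q : ℕ) : ℤ[X] := (X ^ 2 - C ((q : ℤ) ^ 2)) * (X ^ 2 - 1)

theorem aeval_newPoly {A : Type*} [Ring A] (x : A) (q : ℕ) :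
    aeval x (newPoly q) = (x ^ 2 - (q : A) ^ 2) * (x ^ 2 - 1) := by
  simp [newPoly]

section

variable {p : ℕ} [Fact p.Prime] {M : ℕ} [NeZero M] {S : Finset ℕ}
  {D : HeckeGaloisModule p M (↑S : Set ℕ)} {q : ℕ} (E : NewAt p M S D q)

/-- matrix of `a` -/
noncomputable def matA : Matrix (Fin (rk E.D')) (Fin (rk D)) ℤ_[p] :=
  LinearMap.toMatrix (basp D) (basp E.D') E.a

/-- matrix of `b` -/
noncomputable def matB : Matrix (Fin (rk E.D')) (Fin (rk D)) ℤ_[p] :=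
  LinearMap.toMatrix (basp D) (basp E.D') E.b

theorem toMatrix_comp_eq {D' : HeckeGaloisModule p E.N (↑S : Set ℕ)}
    (f : (ℤ_[p] ⊗[ℤ] D.H) →ₗ[ℤ_[p]] (ℤ_[p] ⊗[ℤ] D'.H))
    (t : heckeAlgebra M 2 (↑S : Set ℕ)) (t' : heckeAlgebra E.N 2 (↑S : Set ℕ))
    (h : ∀ x, f ((D.θ t).baseChange ℤ_[p] x) = (D'.θ t').baseChange ℤ_[p] (f x)) :
    LinearMap.toMatrix (basp D) (basp D') f * (Q D t).map (algebraMap ℤ ℤ_[p]) =
      (Q D' t').map (algebraMap ℤ ℤ_[p]) * LinearMap.toMatrix (basp D) (basp D') f := by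
  rw [← toMatrix_baseChange_θ, ← toMatrix_baseChange_θ]
  have h1 : f ∘ₗ (D.θ t).baseChange ℤ_[p] = (D'.θ t').baseChange ℤ_[p] ∘ₗ f :=
    LinearMap.ext h
  have h2 := congrArg (LinearMap.toMatrix (basp D) (basp D')) h1
  rw [LinearMap.toMatrix_comp (basp D) (basp D) (basp D'),
    LinearMap.toMatrix_comp (basp D) (basp D') (basp D')] at h2
  exact h2

theorem killed_of_new
    (hD : ∀ (p : ℕ) [Fact p.Prime] (N : ℕ) [NeZero N] (S : Finset ℕ), p ∈ S →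
      (∀ q : ℕ, q.Prime → q ∣ N → q ∈ S) → Nonempty (HeckeGaloisModule p N (↑S : Set ℕ)))
    {g : CuspForm (Gamma0 M) 2} (hg : g.IsNewform)
    (hMS : ∀ q : ℕ, q.Prime → q ∣ M → q ∈ S)
    (chig : heckeAlgebra M 2 (↑S : Set ℕ) →+* ℂ)
    (hchig : ∀ (ℓ : ℕ) (hℓ : ℓ.Prime) (hℓM : ¬ ℓ ∣ M) (hℓS : ℓ ∉ (↑S : Set ℕ)),
      chig (heckeAlgebra.T hℓ hℓM hℓS) = qCoeff g ℓ)
    {K : Type*} [Field K] (i : chig.range →+* K) (hi : Function.Injective i)
    (f : ℤ_[p] →+* K)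
    (c : (ℤ_[p] ⊗[ℤ] D.H) →ₗ[ℤ_[p]] (ℤ_[p] ⊗[ℤ] E.D'.H))
    (hc : ∀ (ℓ : ℕ) (hℓ : ℓ.Prime) (hM : ¬ ℓ ∣ M) (hN : ¬ ℓ ∣ E.N) (hS : ℓ ∉ (↑S : Set ℕ))
      (x : ℤ_[p] ⊗[ℤ] D.H),
      c ((D.θ (heckeAlgebra.T hℓ hM hS)).baseChange ℤ_[p] x) =
        (E.D'.θ (heckeAlgebra.T hℓ hN hS)).baseChange ℤ_[p] (c x))
    (x : Fin (rk D) → K)
    (hx : ∀ t, ((Q D t).map (Int.castRingHom K)).mulVec x = i (chig.rangeRestrict t) • x) :
    ((LinearMap.toMatrix (basp D) (basp E.D') c).map f).mulVec x = 0 := by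
  have hZ : ∀ {m n : ℕ} (B : Matrix (Fin m) (Fin n) ℤ),
      (B.map (algebraMap ℤ ℤ_[p])).map f = B.map (Int.castRingHom K) := by
    intro m n B
    ext a b
    simp
  refine eigenvector_eq_zero hD hg E.dvd E.ne S hMS chig hchig i hi
    (((Int.castRingHom K).mapMatrix).comp (Q E.D')) _ (fun ℓ hℓ hℓN hℓM hℓS => ?_)
  have h1 := toMatrix_comp_eq E c _ _ (hc ℓ hℓ hℓM hℓN hℓS)
  have h2 := congrArg (fun B : Matrix (Fin (rk E.D')) (Fin (rk D)) ℤ_[p] => B.map f) h1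
  simp only [Matrix.map_mul, hZ] at h2
  show ((Q E.D' (heckeAlgebra.T hℓ hℓN hℓS)).map (Int.castRingHom K)).mulVec _ = _
  rw [Matrix.mulVec_mulVec, ← h2, ← Matrix.mulVec_mulVec, hx, Matrix.mulVec_smul]

include E in
/-- The relation `(Φ² - q²)(Φ² - 1) = 0` on the eigenspace. -/
theorem newPoly_eigenspace
    (hD : ∀ (p : ℕ) [Fact p.Prime] (N : ℕ) [NeZero N] (S : Finset ℕ), p ∈ S →
      (∀ q : ℕ, q.Prime → q ∣ N → q ∈ S) → Nonempty (HeckeGaloisModule p N (↑S : Set ℕ)))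
    {g : CuspForm (Gamma0 M) 2} (hg : g.IsNewform)
    (hMS : ∀ q : ℕ, q.Prime → q ∣ M → q ∈ S)
    (chig : heckeAlgebra M 2 (↑S : Set ℕ) →+* ℂ)
    (hchig : ∀ (ℓ : ℕ) (hℓ : ℓ.Prime) (hℓM : ¬ ℓ ∣ M) (hℓS : ℓ ∉ (↑S : Set ℕ)),
      chig (heckeAlgebra.T hℓ hℓM hℓS) = qCoeff g ℓ)
    {K : Type*} [Field K] (i : chig.range →+* K) (hi : Function.Injective i)
    (f : ℤ_[p] →+* K) (hf : Function.Injective f)
    {A : ValuationSubring (AlgebraicClosure ℚ)} (hA : A.LiesOverPrime q)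
    {σ : G} (hσ : A.IsFrobeniusAt σ q)
    (x : Fin (rk D) → K)
    (hx : ∀ t, ((Q D t).map (Int.castRingHom K)).mulVec x = i (chig.rangeRestrict t) • x) :
    ((aeval (P D σ) (newPoly q)).map f).mulVec x = 0 := by
  classical
  refine relation_baseChange f hf
    (Matrix.fromRows (LinearMap.toMatrix (basp D) (basp E.D') E.a)
      (LinearMap.toMatrix (basp D) (basp E.D') E.b)) _ ?_ x ?_
  · intro y hy
    rw [Matrix.fromRows_mulVec] at hy
    have hy1 : (LinearMap.toMatrix (basp D) (basp E.D') E.a).mulVec y = 0 := by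
      ext j
      exact congrFun hy (Sum.inl j)
    have hy2 : (LinearMap.toMatrix (basp D) (basp E.D') E.b).mulVec y = 0 := by
      ext j
      exact congrFun hy (Sum.inr j)
    let z := (basp D).equivFun.symm y
    have hz : (basp D).repr z = Finsupp.equivFunOnFinite.symm y := by
      ext j
      have := congrFun ((basp D).equivFun.apply_symm_apply y) j
      exact this
    have hz' : ((basp D).repr z : Fin (rk D) → ℤ_[p]) = y := by
      ext j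
      rw [hz]
      rfl
    have e1 : E.a z = 0 := by
      have h1 := LinearMap.toMatrix_mulVec_repr (basp D) (basp E.D') E.a z
      rw [hz', hy1] at h1
      apply (basp E.D').repr.injective
      ext j
      rw [← congrFun h1 j, map_zero]
      rfl
    have e2 : E.b z = 0 := by
      have h1 := LinearMap.toMatrix_mulVec_repr (basp D) (basp E.D') E.b z
      rw [hz', hy2] at h1
      apply (basp E.D').repr.injective
      ext j
      rw [← congrFun h1 j, map_zero]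
      rfl
    have e3 := E.frob A hA σ hσ z e1 e2
    have e4 : aeval (D.ρ σ) (newPoly q) z = 0 := by
      rw [aeval_newPoly, Module.End.mul_apply, LinearMap.sub_apply, LinearMap.sub_apply,
        Module.End.one_apply, sq (D.ρ σ), Module.End.mul_apply, Module.End.mul_apply, e3]
      have h5 : ((q : Module.End ℤ_[p] (ℤ_[p] ⊗[ℤ] D.H)) ^ 2) (D.ρ σ (D.ρ σ z) - z) =
          ((q : ℤ_[p]) ^ 2) • (D.ρ σ (D.ρ σ z) - z) := by
        rw [← Nat.cast_pow, ← Nat.cast_pow, Nat.cast_smul_eq_nsmul, Module.End.natCast_apply]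
      rw [h5, sub_self]
    have e5 : aeval (P D σ) (newPoly q) =
        LinearMap.toMatrixAlgEquiv (basp D) (aeval (D.ρ σ) (newPoly q)) := by
      rw [P_def]
      exact (Polynomial.aeval_algHom_apply
        ((LinearMap.toMatrixAlgEquiv (basp D)).toAlgHom.restrictScalars ℤ) (D.ρ σ) (newPoly q))
    rw [e5]
    have h6 := LinearMap.toMatrix_mulVec_repr (basp D) (basp D) (aeval (D.ρ σ) (newPoly q)) z
    rw [hz', e4] at h6
    have h7 : (LinearMap.toMatrixAlgEquiv (basp D) (aeval (D.ρ σ) (newPoly q))).mulVec y =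
        (LinearMap.toMatrix (basp D) (basp D) (aeval (D.ρ σ) (newPoly q))).mulVec y := rfl
    rw [h7, h6, map_zero]
    rfl
  · have h1 := killed_of_new E hD hg hMS chig hchig i hi f E.a E.a_hecke x hx
    have h2 := killed_of_new E hD hg hMS chig hchig i hi f E.b E.b_hecke x hx
    have h3 : (Matrix.fromRows (LinearMap.toMatrix (basp D) (basp E.D') E.a)
      (LinearMap.toMatrix (basp D) (basp E.D') E.b)).map f =
      Matrix.fromRows ((LinearMap.toMatrix (basp D) (basp E.D') E.a).map f)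
        ((LinearMap.toMatrix (basp D) (basp E.D') E.b).map f) := by
      ext (j | j) k <;> rfl
    rw [h3, Matrix.fromRows_mulVec, h1, h2]
    ext (j | j) <;> rfl

end

/-- the trace of Frobenius from the relation `(u² - q²)(u² - 1) = 0`. -/
theorem trace_eq_of_newPoly {O Λ : Type*} [CommRing O] [IsDomain O] [AddCommGroup Λ]
    [Module O Λ] [Module.Free O Λ] [Module.Finite O Λ] [Nontrivial Λ] (u v : Module.End O Λ)
    (t : O) (q : ℕ) (huv : u * v = 1) (hvu : v * u = 1) (h : u + (q : O) • v = t • (1 : Module.End O Λ))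
    (hrel : aeval u (newPoly q) = 0) : t = q + 1 ∨ t = -((q : O) + 1) := by
  -- `u ^ 2 = t u - q`
  have h1 : u ^ 2 = t • u - (q : O) • 1 := by
    have h2 := congrArg (fun w : Module.End O Λ => w * u) h
    simp only [add_mul, smul_mul_assoc, hvu, one_mul] at h2
    rw [← h2, sq, add_sub_cancel_right]
  have h3 : (u ^ 2 - (q : Module.End O Λ) ^ 2) * (u ^ 2 - 1) = (t ^ 2 - ((q : O) + 1) ^ 2) • u ^ 2 := by
    have e1 : (q : Module.End O Λ) ^ 2 = ((q : O) ^ 2) • (1 : Module.End O Λ) := by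
      rw [← Nat.cast_pow, ← Nat.cast_pow, Nat.cast_smul_eq_nsmul, nsmul_one]
    have e2 : u ^ 2 - (q : Module.End O Λ) ^ 2 = t • u - ((q : O) * (q + 1)) • (1 : Module.End O Λ) := by
      rw [e1, h1]
      module
    have e3 : u ^ 2 - 1 = t • u - ((q : O) + 1) • (1 : Module.End O Λ) := by
      rw [h1]
      module
    have e4 : (t • u - ((q : O) * (q + 1)) • (1 : Module.End O Λ)) *
        (t • u - ((q : O) + 1) • (1 : Module.End O Λ)) =
        (t ^ 2) • u ^ 2 - (t * ((q : O) + 1) ^ 2) • u + ((q : O) * (q + 1) ^ 2) •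
          (1 : Module.End O Λ) := by
      rw [sub_mul, mul_sub, mul_sub, smul_mul_smul_comm, smul_mul_smul_comm, smul_mul_smul_comm,
        smul_mul_smul_comm, ← sq u, mul_one, one_mul, one_mul]
      module
    rw [e2, e3, e4, h1]
    module
  rw [aeval_newPoly, h3] at hrel
  have hv2 : u ^ 2 * v ^ 2 = 1 := by
    rw [sq, sq, mul_assoc, ← mul_assoc u v v, huv, one_mul, huv]
  have h4 : (t ^ 2 - ((q : O) + 1) ^ 2) • (1 : Module.End O Λ) = (0 : O) • 1 := by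
    rw [← hv2, ← smul_mul_assoc, hrel, zero_mul, zero_smul]
  have h5 := scalar_injective h4
  have h6 : (t - (q + 1)) * (t + (q + 1)) = 0 := by rw [← h5]; ring
  rcases mul_eq_zero.mp h6 with h7 | h7
  · left
    exact sub_eq_zero.mp h7
  · right
    exact eq_neg_of_add_eq_zero_left h7

/-- **S35**, from modules with degeneracy data. -/
theorem S35_of_modules
    (hD : ∀ (p : ℕ) [Fact p.Prime] (N : ℕ) [NeZero N] (S : Finset ℕ), p ∈ S →
      (∀ q : ℕ, q.Prime → q ∣ N → q ∈ S) → Nonempty (HeckeGaloisModule p N (↑S : Set ℕ)))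
    (hE : ∀ (p : ℕ) [Fact p.Prime] (M : ℕ) [NeZero M] (S : Finset ℕ), p ∈ S →
      (∀ q : ℕ, q.Prime → q ∣ M → q ∈ S) → ∃ D : HeckeGaloisModule p M (↑S : Set ℕ),
        ∀ q : ℕ, q.Prime → q ≠ p → q ∣ M → ¬ q ^ 2 ∣ M → Nonempty (NewAt p M S D q))
    {M : ℕ} [NeZero M] {g : CuspForm (CongruenceSubgroup.Gamma0 M) 2} (hg : g.IsNewform)
    (lam : ℕ) [Fact lam.Prime]
    (S : Finset ℕ)
    (O' : Type) [CommRing O'] [IsDomain O'] [IsDiscreteValuationRing O']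
    [IsAdicComplete (IsLocalRing.maximalIdeal O') O'] [Finite (IsLocalRing.ResidueField O')]
    [CharZero O'] (hlamO' : (lam : O') ∈ IsLocalRing.maximalIdeal O')
    (chig : CuspForm.heckeAlgebra M 2 (↑S : Set ℕ) →+* ℂ)
    (hchig : ∀ (ℓ : ℕ) (hℓ : ℓ.Prime) (hℓM : ¬ ℓ ∣ M) (hℓS : ℓ ∉ (↑S : Set ℕ)),
      chig (CuspForm.heckeAlgebra.T hℓ hℓM hℓS) = ModularFormClass.qCoeff g ℓ)
    (iota : chig.range →+* O')
    (hlamS : lam ∈ S) (hMS : ∀ q : ℕ, q.Prime → q ∣ M → q ∈ S) :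
    ∃ (O'' : Type) (_ : CommRing O'') (_ : IsDomain O'') (_ : IsDiscreteValuationRing O'')
      (_ : IsAdicComplete (IsLocalRing.maximalIdeal O'') O'') (_ : Finite (IsLocalRing.ResidueField O''))
      (_ : CharZero O'') (_ : Algebra O' O'') (_ : Module.Finite O' O'') (_ : IsLocalHom (algebraMap O' O'')),
      Function.Injective (algebraMap O' O'') ∧
      ∃ ρ : GaloisRepAdic O'',
        (∀ (ℓ : ℕ) (hℓ : ℓ.Prime) (hℓM : ¬ ℓ ∣ M) (hℓS : ℓ ∉ (↑S : Set ℕ)),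
          ∀ A : ValuationSubring (AlgebraicClosure ℚ), A.LiesOverPrime ℓ →
            ∀ σ : AlgebraicClosure ℚ ≃ₐ[ℚ] AlgebraicClosure ℚ, A.IsFrobeniusAt σ ℓ →
              LinearMap.charpoly (ρ.ρ σ) =
                X ^ 2 - C (algebraMap O' O'' ((iota.comp chig.rangeRestrict) (CuspForm.heckeAlgebra.T hℓ hℓM hℓS))) * X
                  + C ((ℓ : O''))) ∧
        (∀ q : ℕ, q.Prime → q ≠ lam → q ∣ M → ¬ q ^ 2 ∣ M →
          ∀ A : ValuationSubring (AlgebraicClosure ℚ), A.LiesOverPrime q →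
            ∀ σ : AlgebraicClosure ℚ ≃ₐ[ℚ] AlgebraicClosure ℚ, A.IsFrobeniusAt σ q →
              LinearMap.charpoly (ρ.ρ σ) = X ^ 2 - C ((q : O'') + 1) * X + C ((q : O'')) ∨
              LinearMap.charpoly (ρ.ρ σ) = X ^ 2 + C ((q : O'') + 1) * X + C ((q : O''))) := by
  classical
  obtain ⟨D, hDq⟩ := hE lam M S hlamS hMS
  let χ : heckeAlgebra M 2 (↑S : Set ℕ) →+* O' := iota.comp chig.rangeRestrict
  obtain ⟨Λ, i1, i2, i3, i4, i5, ρ, hcont, hfrob, hunr, f, hf, hrel⟩ :=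
    exists_lattice_rep_rel D O' hlamO' χ
  let a : ℕ → O' := fun ℓ => if h : ℓ.Prime ∧ ¬ ℓ ∣ M ∧ ℓ ∉ (↑S : Set ℕ) then
    χ (CuspForm.heckeAlgebra.T h.1 h.2.1 h.2.2) else 0
  have ha : ∀ (ℓ : ℕ) (hℓ : ℓ.Prime) (hℓN : ¬ ℓ ∣ M) (hℓS : ℓ ∉ (↑S : Set ℕ)),
      a ℓ = χ (CuspForm.heckeAlgebra.T hℓ hℓN hℓS) := fun ℓ hℓ hℓN hℓS =>
    dif_pos ⟨hℓ, hℓN, hℓS⟩
  obtain ⟨O₂, j1, j2, j3, j4, j5, j6, j7, j8, j9, hinj, ρ', t, ht, hchar, h1, h2⟩ :=
    exists_galoisRepAdic_strong lam O' hlamO' Λ ρ hcont S hlamS a (by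
      intro ℓ hℓ hℓS A hA τ hτ
      have hℓN : ¬ ℓ ∣ M := fun h => hℓS (hMS ℓ hℓ h)
      have hℓS' : ℓ ∉ (↑S : Set ℕ) := fun h => hℓS (Finset.mem_coe.mp h)
      rw [ha ℓ hℓ hℓN hℓS']
      exact hfrob ℓ hℓ hℓN hℓS' (fun e => hℓS (e ▸ hlamS)) A hA τ hτ)
  refine ⟨O₂, j1, j2, j3, j4, j5, j6, j7, j8, j9, hinj, ρ', ?_, ?_⟩
  · intro ℓ hℓ hℓN hℓS A hA σ hσ
    rw [h1 ℓ hℓ (fun h => hℓS (Finset.mem_coe.mpr h)) A hA σ hσ, ha ℓ hℓ hℓN hℓS]
  · intro q hq hqlam hqM hq2 A hA σ hσ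
    obtain ⟨E⟩ := hDq q hq hqlam hqM hq2
    -- injectivity of `iota`
    have hiota : Function.Injective iota := by
      have hfin := Period.finite_heckeAlgebra M 2 (↑S : Set ℕ)
      have hR : Module.Finite ℤ chig.range :=
        Module.Finite.of_surjective (chig.rangeRestrict.toIntAlgHom.toLinearMap)
          chig.rangeRestrict_surjective
      have hint : Algebra.IsIntegral ℤ chig.range := inferInstance
      rw [RingHom.injective_iff_ker_eq_bot]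
      apply Ideal.eq_bot_of_comap_eq_bot (R := ℤ)
      rw [eq_bot_iff]
      intro n hn
      rw [Ideal.mem_comap, RingHom.mem_ker] at hn
      rw [Ideal.mem_bot]
      have h1 : ((n : ℤ) : O') = 0 := by simpa using hn
      exact_mod_cast h1
    let i : chig.range →+* FractionRing O' := (algebraMap O' (FractionRing O')).comp iota
    have hi : Function.Injective i := (IsFractionRing.injective O' (FractionRing O')).comp hiota
    have hnew : aeval (ρ σ) (newPoly q) = 0 := by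
      refine hrel σ (newPoly q) fun x hx => ?_
      exact newPoly_eigenspace E hD hg hMS chig hchig i hi f hf hA hσ x hx
    have hcyc := cyc_frobenius (O := O') hlamO' hq hqlam hA hσ
    have hts := ht σ
    rw [hcyc] at hts
    have huv : ρ σ * ρ σ⁻¹ = 1 := by rw [← map_mul, mul_inv_cancel, map_one]
    have hvu : ρ σ⁻¹ * ρ σ = 1 := by rw [← map_mul, inv_mul_cancel, map_one]
    have hcs := hchar σ
    rw [hcyc] at hcs
    rcases trace_eq_of_newPoly (ρ σ) (ρ σ⁻¹) (t σ) q huv hvu hts hnew with h3 | h3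
    · left
      rw [hcs, h3, map_add, map_natCast, map_one]
    · right
      rw [hcs, h3, map_neg, map_add, map_natCast, map_one, C_neg]
      ring

end Fermat.Agent.NewPoint
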