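import Fermat.Agent.Tate.Input
import Fermat.Agent.NewPoint.S35Wiring
import Fermat.Agent.HGAssembly.S34Wiring

/-!
Functoriality of the Tate module, and the degeneracy data `NewAt` from maps of Jacobians.
-/

set_option autoImplicit false

noncomputable section

namespace Fermat.Agent.NewPoint

open Fermat.Agent.Tate

section Ind

variable {p : ℕ} [Fact p.Prime] {J Γ : Type*} [AddCommGroup J] [Group Γ]
  (C : Comparison p J Γ) (Λ : Submodule ℤ_[p] (Additive Γ →+ ℤ_[p]))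
  (hΛ : ∀ φ, φ ∈ Λ ↔ ∀ n, red n φ ∈ Set.range (C.e n))
  {J' Γ' : Type*} [AddCommGroup J'] [Group Γ']
  (C' : Comparison p J' Γ') (Λ' : Submodule ℤ_[p] (Additive Γ' →+ ℤ_[p]))
  (hΛ' : ∀ φ, φ ∈ Λ' ↔ ∀ n, red n φ ∈ Set.range (C'.e n))

theorem exists_indHom (u : J →+ J') (φ : Λ) : ∃ ψ : Λ', ∀ n,
    (pr C' Λ' hΛ' n ψ : J') = u (pr C Λ hΛ n φ) := by
  obtain ⟨ψ, hψ⟩ := exists_lim C' Λ' hΛ'
    (fun n => ⟨u (pr C Λ hΛ n φ), map_mem_tor p u (pr C Λ hΛ n φ).2⟩) (fun n =>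
    Subtype.ext (by
      change p • u (pr C Λ hΛ (n + 1) φ : J) = u (pr C Λ hΛ n φ)
      rw [← map_nsmul, p_smul_pr]))
  exact ⟨ψ, fun n => congrArg Subtype.val (hψ n)⟩

/-- A homomorphism `J → J'` induces a `ℤ_p`-linear map `Λ → Λ'`. -/
def indHom (u : J →+ J') : Λ →ₗ[ℤ_[p]] Λ' where
  toFun φ := (exists_indHom C Λ hΛ C' Λ' hΛ' u φ).choose
  map_add' φ ψ := by
    refine ext_pr C' Λ' hΛ' fun n => ?_
    rw [(exists_indHom C Λ hΛ C' Λ' hΛ' u _).choose_spec, map_add, map_add, AddSubgroup.coe_add,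
      map_add, AddSubgroup.coe_add, (exists_indHom C Λ hΛ C' Λ' hΛ' u φ).choose_spec,
      (exists_indHom C Λ hΛ C' Λ' hΛ' u ψ).choose_spec]
  map_smul' a φ := by
    refine ext_pr C' Λ' hΛ' fun n => ?_
    rw [(exists_indHom C Λ hΛ C' Λ' hΛ' u _).choose_spec, RingHom.id_apply, pr_smul, pr_smul,
      AddSubgroup.coe_nsmul, map_nsmul, AddSubgroup.coe_nsmul,
      (exists_indHom C Λ hΛ C' Λ' hΛ' u φ).choose_spec]

theorem pr_indHom (u : J →+ J') (n : ℕ) (φ : Λ) :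
    (pr C' Λ' hΛ' n (indHom C Λ hΛ C' Λ' hΛ' u φ) : J') = u (pr C Λ hΛ n φ) :=
  (exists_indHom C Λ hΛ C' Λ' hΛ' u φ).choose_spec n

end Ind

open scoped TensorProduct
open ModularCurve.Period CongruenceSubgroup
open Fermat.Agent.HeckeHom Fermat.Agent.HGModule

local notation "G" => (AlgebraicClosure ℚ ≃ₐ[ℚ] AlgebraicClosure ℚ)

variable {p : ℕ} [Fact p.Prime] {M N : ℕ} [NeZero M] [NeZero N] {S : Set ℕ}
  (I : TateInput p M S) (I' : TateInput p N S)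

theorem comp_theta (ℓ : ℕ) (hℓ : ℓ.Prime) (hℓN : ¬ ℓ ∣ M) (hℓS : ℓ ∉ S) (n : ℕ)
    (x : ℤ_[p] ⊗[ℤ] parabolicHoms ℤ (Gamma0 M) ℤ) :
    I.comp n ((theta I.hES I.hS ℤ (CuspForm.heckeAlgebra.T hℓ hℓN hℓS)).baseChange ℤ_[p] x) =
      I.T ℓ hℓ hℓN (I.comp n x) := by
  change (I.prj n (TateInput.iso p M
    ((theta I.hES I.hS ℤ (CuspForm.heckeAlgebra.T hℓ hℓN hℓS)).baseChange ℤ_[p] x)) : I.J) =
    I.T ℓ hℓ hℓN (I.prj n (TateInput.iso p M x) : I.J)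
  rw [I.iso_baseChange_theta, theta_T I.hES I.hS ℤ_[p] hℓ hℓN hℓS]
  exact I.prj_parHecke ℓ hℓ hℓN hℓS n _

theorem comp_torsion (n : ℕ) (x : ℤ_[p] ⊗[ℤ] parabolicHoms ℤ (Gamma0 M) ℤ) :
    p ^ n • I.comp n x = 0 := I.prj_torsion n _

theorem comp_smul (n : ℕ) (a : ℕ) (x : ℤ_[p] ⊗[ℤ] parabolicHoms ℤ (Gamma0 M) ℤ) :
    I.comp n ((a : ℤ_[p]) • x) = a • I.comp n x := by
  rw [Nat.cast_smul_eq_nsmul, map_nsmul]

/-- the map of Tate modules induced by a homomorphism of Jacobians -/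
def homTate (u : I.J →+ I'.J) :
    (ℤ_[p] ⊗[ℤ] parabolicHoms ℤ (Gamma0 M) ℤ) →ₗ[ℤ_[p]]
      (ℤ_[p] ⊗[ℤ] parabolicHoms ℤ (Gamma0 N) ℤ) :=
  (TateInput.iso p N).symm.toLinearMap ∘ₗ
    (indHom I.C (TateInput.Lam p M) I.mem_iff I'.C (TateInput.Lam p N) I'.mem_iff u) ∘ₗ
    (TateInput.iso p M).toLinearMap

theorem comp_homTate (u : I.J →+ I'.J) (n : ℕ)
    (x : ℤ_[p] ⊗[ℤ] parabolicHoms ℤ (Gamma0 M) ℤ) :
    I'.comp n (homTate I I' u x) = u (I.comp n x) := by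
  change (I'.prj n (TateInput.iso p N ((TateInput.iso p N).symm
    (indHom I.C (TateInput.Lam p M) I.mem_iff I'.C (TateInput.Lam p N) I'.mem_iff u
      (TateInput.iso p M x)))) : I'.J) = u (I.prj n (TateInput.iso p M x) : I.J)
  rw [LinearEquiv.apply_symm_apply]
  exact pr_indHom I.C (TateInput.Lam p M) I.mem_iff I'.C (TateInput.Lam p N) I'.mem_iff u n _

theorem homTate_theta (u : I.J →+ I'.J) (ℓ : ℕ) (hℓ : ℓ.Prime) (hM : ¬ ℓ ∣ M) (hN : ¬ ℓ ∣ N)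
    (hS : ℓ ∉ S)
    (hu : ∀ x : I.J, (∃ n : ℕ, p ^ n • x = 0) → u (I.T ℓ hℓ hM x) = I'.T ℓ hℓ hN (u x))
    (x : ℤ_[p] ⊗[ℤ] parabolicHoms ℤ (Gamma0 M) ℤ) :
    homTate I I' u ((theta I.hES I.hS ℤ (CuspForm.heckeAlgebra.T hℓ hM hS)).baseChange ℤ_[p] x) =
      (theta I'.hES I'.hS ℤ (CuspForm.heckeAlgebra.T hℓ hN hS)).baseChange ℤ_[p]
        (homTate I I' u x) := by
  refine I'.ext_comp fun n => ?_
  rw [comp_homTate, comp_theta, comp_theta, comp_homTate, hu _ ⟨n, comp_torsion I n x⟩]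

theorem homTate_eq_zero_iff (u : I.J →+ I'.J) (x : ℤ_[p] ⊗[ℤ] parabolicHoms ℤ (Gamma0 M) ℤ) :
    homTate I I' u x = 0 ↔ ∀ n, u (I.comp n x) = 0 := by
  constructor
  · intro h n
    rw [← comp_homTate, h, map_zero]
  · intro h
    refine I'.ext_comp fun n => ?_
    rw [comp_homTate, h, map_zero]

theorem rho_frob (q : ℕ) (σ : G) (x : ℤ_[p] ⊗[ℤ] parabolicHoms ℤ (Gamma0 M) ℤ)
    (h : ∀ n, σ • σ • (σ • σ • I.comp n x - I.comp n x) =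
      (q ^ 2) • (σ • σ • I.comp n x - I.comp n x)) :
    I.rho σ (I.rho σ (I.rho σ (I.rho σ x) - x)) =
      ((q : ℤ_[p]) ^ 2) • (I.rho σ (I.rho σ x) - x) := by
  refine I.ext_comp fun n => ?_
  have e : ((q : ℤ_[p]) ^ 2) = ((q ^ 2 : ℕ) : ℤ_[p]) := by push_cast; rfl
  rw [e, comp_smul, I.comp_rho, I.comp_rho, map_sub, I.comp_rho, I.comp_rho]
  exact h n

theorem rho_sub_one {σ : G} (x : ℤ_[p] ⊗[ℤ] parabolicHoms ℤ (Gamma0 M) ℤ)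
    (h : ∀ n, σ • (σ • I.comp n x - I.comp n x) = σ • I.comp n x - I.comp n x) :
    I.rho σ (I.rho σ x - x) - (I.rho σ x - x) = 0 := by
  refine I.ext_comp fun n => ?_
  rw [map_sub, I.comp_rho, map_sub, I.comp_rho, h n, sub_self, map_zero]

/-- The degeneracy data, from maps of Jacobians. -/
def newAt {S : Finset ℕ} (I : TateInput p M (↑S : Set ℕ)) (I' : TateInput p N (↑S : Set ℕ))
    (hNM : N ∣ M) (hne : N ≠ M) (q : ℕ) (α β : I.J →+ I'.J)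
    (hα : ∀ (ℓ : ℕ) (hℓ : ℓ.Prime) (hM : ¬ ℓ ∣ M) (hN : ¬ ℓ ∣ N), ℓ ∉ (↑S : Set ℕ) →
      ∀ x : I.J, (∃ n : ℕ, p ^ n • x = 0) → α (I.T ℓ hℓ hM x) = I'.T ℓ hℓ hN (α x))
    (hβ : ∀ (ℓ : ℕ) (hℓ : ℓ.Prime) (hM : ¬ ℓ ∣ M) (hN : ¬ ℓ ∣ N), ℓ ∉ (↑S : Set ℕ) →
      ∀ x : I.J, (∃ n : ℕ, p ^ n • x = 0) → β (I.T ℓ hℓ hM x) = I'.T ℓ hℓ hN (β x))
    (hfrob : ∀ A : ValuationSubring (AlgebraicClosure ℚ), A.LiesOverPrime q →
      ∀ σ : G, A.IsFrobeniusAt σ q → ∀ x : I.J, (∃ n : ℕ, p ^ n • x = 0) → α x = 0 → β x = 0 →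
        σ • σ • (σ • σ • x - x) = (q ^ 2) • (σ • σ • x - x)) :
    NewAt p M S I.toModule q where
  N := N
  dvd := hNM
  ne := hne
  D' := I'.toModule
  a := homTate I I' α
  b := homTate I I' β
  a_hecke := fun ℓ hℓ hM hN hS x => homTate_theta I I' α ℓ hℓ hM hN hS (hα ℓ hℓ hM hN hS) x
  b_hecke := fun ℓ hℓ hM hN hS x => homTate_theta I I' β ℓ hℓ hM hN hS (hβ ℓ hℓ hM hN hS) x
  frob := fun A hA σ hσ x hx1 hx2 => by
    have h1 := (homTate_eq_zero_iff I I' α x).mp hx1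
    have h2 := (homTate_eq_zero_iff I I' β x).mp hx2
    exact rho_frob I q σ x fun n =>
      hfrob A hA σ hσ (I.comp n x) ⟨n, comp_torsion I n x⟩ (h1 n) (h2 n)

/-- unipotence of inertia on the Tate module, from torsion points. -/
theorem rho_unipotent {σ : G}
    (h : ∀ x : I.J, (∃ n : ℕ, p ^ n • x = 0) → σ • (σ • x - x) = σ • x - x) :
    (I.toModule.ρ σ - 1) * (I.toModule.ρ σ - 1) = 0 :=
  LinearMap.ext fun x => rho_sub_one I x fun n => h (I.comp n x) ⟨n, comp_torsion I n x⟩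

end Fermat.Agent.NewPoint
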