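import Fermat.Agent.BadRed.LocalPkgQb
import Fermat.Agent.Degen.HeckeEq
import Fermat.Agent.NewPoint.TateHom
import Fermat.Agent.Tate.Final
import Fermat.Agent.Cusps.GenusFinal

/-!
# S34 and S35
-/

set_option autoImplicit false

noncomputable section

open AlgebraicCurve ModularCurve

namespace Fermat.Agent.NewPoint

open Fermat.Agent.BadRed Fermat.Agent.Degen Fermat.Agent.Tate Fermat.Agent.HGModule
  Fermat.Agent.HeckeRed

local notation "Qb" => AlgebraicClosure ℚ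

/-- the input for `J₀(N)` -/
def jI (N p : ℕ) [NeZero N] [Fact p.Prime] (S : Set ℕ) (hS : ∀ q : ℕ, q.Prime → q ∣ N → q ∈ S) :
    TateInput p N S :=
  jInput N p S hS (frobJ_of_packages (hasPackages_of_genusEq (Cusps.genusEq N)))
    (unrJ_of_packages (hasPackages_of_genusEq (Cusps.genusEq N)))

theorem exists_w_aux {L : Type*} [Field L] [IsAlgClosed L] [CharZero L] {N r : ℕ} [NeZero N]
    (hr : r.Prime) (hrN : ¬ r ∣ N) {E E₀ : IntermediateField L (LaurentSeries L)}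
    (hE : E = modularFunctionFieldFullC L (N * r)) (hE₀ : E₀ = modularFunctionFieldFullC L N)
    (α β : E₀ →ₐ[L] E) (hα : ∀ x, (α x : LaurentSeries L) = x)
    (hβ : ∀ x, (β x : LaurentSeries L) =
      (haveI : NeZero r := ⟨hr.ne_zero⟩; qExpand L r (x : LaurentSeries L))) :
    ∃ w : E ≃ₐ[L] E, (∀ x, w (α x) = β x) ∧ ∀ x, w (β x) = α x := by
  have i0 : Fact r.Prime := ⟨hr⟩
  subst hE hE₀
  refine ⟨ww L N r hrN, fun x => ?_, fun x => ?_⟩
  · exact (AtkinLehner.beta_eq (cast_ne_zero_L L N) (cast_ne_zero_Lr L r) hrN α β hα hβ x).symm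
  · rw [AtkinLehner.beta_eq (cast_ne_zero_L L N) (cast_ne_zero_Lr L r) hrN α β hα hβ x]
    exact ww_ww L N r hrN _

/-- the local package at a prime exactly dividing the level -/
theorem exists_toric {N r : ℕ} [NeZero N] [NeZero (N * r)] (hr : r.Prime) (hrN : ¬ r ∣ N)
    (A : ValuationSubring Qb) (hA : A.LiesOverPrime r) {n : ℕ} (hn : ¬ r ∣ n) :
    haveI : NeZero r := ⟨hr.ne_zero⟩
    ∃ (w : modularFunctionFieldBar (N * r) ≃ₐ[Qb] modularFunctionFieldBar (N * r))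
      (NN : AddSubgroup (JZero (N * r))),
      IsToric A r n (heckeAlphaBar Qb N r) (heckeBetaBar Qb N r) w NN := by
  have : NeZero r := ⟨hr.ne_zero⟩
  obtain ⟨w, h1, h2⟩ := exists_w_aux hr hrN (Igusa.modularFunctionFieldBar_eq (N * r))
    (Igusa.modularFunctionFieldBar_eq N) (heckeAlphaBar Qb N r) (heckeBetaBar Qb N r)
    (coe_heckeAlphaBar N r) (coe_heckeBetaBar N r)
  obtain ⟨NN, H⟩ := exists_isToric hr rfl hrN A hA hn (heckeAlphaBar Qb N r)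
    (heckeBetaBar Qb N r) (coe_heckeAlphaBar N r) (coe_heckeBetaBar N r) w h1 h2
  exact ⟨w, NN, H⟩

theorem dvd_pow_of_ne {p r n : ℕ} (hp : p.Prime) (hr : r.Prime) (h : r ≠ p) : ¬ r ∣ p ^ n :=
  fun h' => h ((Nat.prime_dvd_prime_iff_eq hr hp).mp (hr.dvd_of_dvd_pow h'))

/-- inertia is unipotent of level two on `p`-power torsion -/
theorem unipotent_torsion {M r p : ℕ} [NeZero M] (hp : p.Prime) (hr : r.Prime) (hrp : r ≠ p)
    (hrM : r ∣ M) (hr2 : ¬ r ^ 2 ∣ M) (A : ValuationSubring Qb) (hA : A.LiesOverPrime r)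
    (σ : Qb ≃ₐ[ℚ] Qb) (hσ : σ ∈ A.inertiaSubgroupIn ℚ) (x : JZero M)
    (hx : ∃ n : ℕ, p ^ n • x = 0) : σ • (σ • x - x) = σ • x - x := by
  obtain ⟨N, rfl⟩ := hrM
  obtain ⟨n, hn⟩ := hx
  have hN0 : NeZero N := ⟨fun h => NeZero.ne (r * N) (by rw [h, mul_zero])⟩
  have hrN : ¬ r ∣ N := fun ⟨m, hm⟩ => hr2 ⟨m, by rw [hm]; ring⟩
  have : NeZero (N * r) := ⟨mul_ne_zero hN0.out hr.ne_zero⟩
  have key : ∀ (M : ℕ) [NeZero M], M = N * r → ∀ y : JZero M, p ^ n • y = 0 →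
      σ • (σ • y - y) = σ • y - y := by
    intro M _ hM
    subst hM
    intro y hy
    obtain ⟨w, NN, H⟩ := exists_toric hr hrN A hA (dvd_pow_of_ne (n := n) hp hr hrp)
    exact H.inertia_fix σ hσ _ (H.inertia_sub σ hσ y hy)
  exact key (r * N) (mul_comm _ _) x hn

/-- Frobenius on torsion classes killed by both push-forwards -/
theorem frob_torsion {N r p : ℕ} [NeZero N] [NeZero (N * r)] (hp : p.Prime) (hr : r.Prime)
    (hrp : r ≠ p) (hrN : ¬ r ∣ N) (A : ValuationSubring Qb) (hA : A.LiesOverPrime r)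
    (σ : Qb ≃ₐ[ℚ] Qb) (hσ : A.IsFrobeniusAt σ r) (x : JZero (N * r))
    (hx : ∃ n : ℕ, p ^ n • x = 0)
    (h1 : haveI : NeZero r := ⟨hr.ne_zero⟩; pushPic (heckeAlphaBar Qb N r) x = 0)
    (h2 : haveI : NeZero r := ⟨hr.ne_zero⟩; pushPic (heckeBetaBar Qb N r) x = 0) :
    σ • σ • (σ • σ • x - x) = (r ^ 2) • (σ • σ • x - x) := by
  obtain ⟨n, hn⟩ := hx
  obtain ⟨w, NN, H⟩ := exists_toric hr hrN A hA (dvd_pow_of_ne (n := n) hp hr hrp)
  rw [H.frob_sq σ hσ _ (H.frob_sub σ hσ x hn h1 h2), sq]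

theorem qExpand_one' {R : Type*} [CommRing R] (x : LaurentSeries R) : qExpand R 1 x = x := by
  ext k
  have := qExpand_coeff_mul 1 x k
  rwa [Nat.cast_one, one_mul] at this

theorem pushPic_alpha_heckeOperatorBar {N r : ℕ} [NeZero N] [NeZero (N * r)] [NeZero r]
    (ℓ : ℕ) (hℓ : ℓ.Prime) (hℓM : ¬ ℓ ∣ N * r) (x : JZero (N * r)) :
    pushPic (heckeAlphaBar Qb N r) (heckeOperatorBar (N * r) ⟨ℓ, hℓ⟩ x) =
      heckeOperatorBar N ⟨ℓ, hℓ⟩ (pushPic (heckeAlphaBar Qb N r) x) := by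
  have : NeZero ℓ := ⟨hℓ.ne_zero⟩
  exact pushPic_heckeOperatorAlong (N := N) (M := N * r) (ℓ := ℓ) (d := 1) hℓ hℓM
    (by rw [mul_one]; exact Dvd.intro r rfl) (heckeAlphaBar Qb N r)
    (fun x => by rw [qExpand_one']; exact coe_heckeAlphaBar N r x) x

theorem pushPic_beta_heckeOperatorBar {N r : ℕ} [NeZero N] [NeZero (N * r)] [NeZero r]
    (ℓ : ℕ) (hℓ : ℓ.Prime) (hℓM : ¬ ℓ ∣ N * r) (x : JZero (N * r)) :
    pushPic (heckeBetaBar Qb N r) (heckeOperatorBar (N * r) ⟨ℓ, hℓ⟩ x) =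
      heckeOperatorBar N ⟨ℓ, hℓ⟩ (pushPic (heckeBetaBar Qb N r) x) := by
  have : NeZero ℓ := ⟨hℓ.ne_zero⟩
  exact pushPic_heckeOperatorAlong (N := N) (M := N * r) (ℓ := ℓ) (d := r) hℓ hℓM
    dvd_rfl (heckeBetaBar Qb N r) (coe_heckeBetaBar N r) x

/-- the degeneracy data at a prime exactly dividing the level -/
theorem nonempty_newAt {p M : ℕ} [Fact p.Prime] [NeZero M] {S : Finset ℕ}
    (hMS : ∀ q : ℕ, q.Prime → q ∣ M → q ∈ (↑S : Set ℕ)) {q : ℕ} (hq : q.Prime) (hqp : q ≠ p)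
    (hqM : q ∣ M) (hq2 : ¬ q ^ 2 ∣ M) :
    Nonempty (NewAt p M S (jI M p (↑S : Set ℕ) hMS).toModule q) := by
  obtain ⟨N, hN⟩ := hqM
  have hN' : M = N * q := by rw [hN, mul_comm]
  have hN0 : NeZero N := ⟨fun h => NeZero.ne M (by rw [hN', h, zero_mul])⟩
  have hqN : ¬ q ∣ N := fun ⟨m, hm⟩ => hq2 ⟨m, by rw [hN, hm]; ring⟩
  have : NeZero q := ⟨hq.ne_zero⟩
  clear hN
  subst hN'
  refine ⟨newAt (jI (N * q) p (↑S : Set ℕ) hMS)
    (jI N p (↑S : Set ℕ) fun r hr hrN => hMS r hr (hrN.mul_right q)) (Dvd.intro q rfl) ?_ q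
    (pushPic (heckeAlphaBar Qb N q)) (pushPic (heckeBetaBar Qb N q)) ?_ ?_ ?_⟩
  · intro h
    have h1 : N * 1 = N * q := by rw [mul_one]; exact h
    exact hq.one_lt.ne (Nat.eq_of_mul_eq_mul_left (Nat.pos_of_ne_zero hN0.out) h1)
  · intro ℓ hℓ hM _ _ x _
    exact pushPic_alpha_heckeOperatorBar ℓ hℓ hM x
  · intro ℓ hℓ hM _ _ x _
    exact pushPic_beta_heckeOperatorBar ℓ hℓ hM x
  · intro A hA σ hσ x hx h1 h2
    exact frob_torsion (Fact.out : p.Prime) hq hqp hqN A hA σ hσ x hx h1 h2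

/-- unipotence of inertia on the Tate module -/
theorem rho_unipotent_jI {p M : ℕ} [Fact p.Prime] [NeZero M] {S : Set ℕ}
    (hMS : ∀ q : ℕ, q.Prime → q ∣ M → q ∈ S) {q : ℕ} (hq : q.Prime) (hqp : q ≠ p)
    (hqM : q ∣ M) (hq2 : ¬ q ^ 2 ∣ M) (A : ValuationSubring Qb) (hA : A.LiesOverPrime q)
    (σ : Qb ≃ₐ[ℚ] Qb) (hσ : σ ∈ A.inertiaSubgroupIn ℚ) :
    ((jI M p S hMS).toModule.ρ σ - 1) * ((jI M p S hMS).toModule.ρ σ - 1) = 0 := by
  apply rho_unipotent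
  intro x hx
  exact unipotent_torsion (Fact.out : p.Prime) hq hqp hqM hq2 A hA σ hσ x hx

end Fermat.Agent.NewPoint
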