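import Fermat.Agent.NewPoint.SMO
import Fermat.Agent.HGModule.PointLift
import Fermat.Agent.HGModule.EigenChar
import Fermat.Agent.Period.HeckeFinite

/-!
Strong multiplicity one for finitely many exceptional good primes, complex eigenforms.
-/

set_option autoImplicit false

open scoped TensorProduct
open Polynomial IsLocalRing CongruenceSubgroup ModularFormClass CuspForm

namespace Fermat.Agent.NewPoint

open Fermat.Agent.QuadRep Fermat.Agent.HGModule Fermat.Agent.HeckeGal Fermat.Agent.HGAssembly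

theorem exists_point (p : ℕ) [hp : Fact p.Prime] (R : Type) [CommRing R] [IsDomain R] [CharZero R]
    [Module.Finite ℤ R] :
    ∃ (O : Type) (_ : CommRing O) (_ : IsDomain O) (_ : IsDiscreteValuationRing O)
      (_ : IsAdicComplete (maximalIdeal O) O) (_ : Finite (ResidueField O)) (_ : CharZero O),
      (p : O) ∈ maximalIdeal O ∧ ∃ χ : R →+* O, Function.Injective χ := by
  have hint : Algebra.IsIntegral ℤ R := inferInstance
  have hpp : (Ideal.span {(p : ℤ)}).IsPrime := by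
    rw [Ideal.span_singleton_prime (by exact_mod_cast hp.out.ne_zero)]
    exact Nat.prime_iff_prime_int.mp hp.out
  obtain ⟨Q, -, hQ, hQp⟩ := Ideal.exists_ideal_over_prime_of_isIntegral (S := R)
    (Ideal.span {(p : ℤ)}) ⊥ (by
      intro x hx
      rw [Ideal.mem_comap, Ideal.mem_bot] at hx
      have : x = 0 := by
        have h1 : ((x : ℤ) : R) = 0 := by simpa using hx
        exact_mod_cast h1
      rw [this]
      exact Ideal.zero_mem _)
  have hmaxp : (Ideal.span {(p : ℤ)}).IsMaximal :=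
    hpp.isMaximal (by
      rw [Ne, Ideal.span_singleton_eq_bot]
      exact_mod_cast hp.out.ne_zero)
  have hQmax : Q.IsMaximal := by
    apply Ideal.isMaximal_of_isIntegral_of_isMaximal_comap (R := ℤ)
    rw [hQp]
    exact hmaxp
  let _ : Field (R ⧸ Q) := Ideal.Quotient.field Q
  have hpQ : (p : R) ∈ Q := by
    have h1 : (p : ℤ) ∈ Q.comap (algebraMap ℤ R) := by
      rw [hQp]; exact Ideal.mem_span_singleton_self _
    rw [Ideal.mem_comap] at h1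
    simpa using h1
  have hchar : CharP (R ⧸ Q) p := by
    rw [CharP.charP_iff_prime_eq_zero hp.out]
    have h2 : Ideal.Quotient.mk Q (p : R) = 0 := Ideal.Quotient.eq_zero_iff_mem.mpr hpQ
    simpa using h2
  obtain ⟨O, i1, i2, i3, i4, i5, i6, hpO, χ, -⟩ :=
    exists_dvr_point (k := R ⧸ Q) p R (Ideal.Quotient.mk Q)
  refine ⟨O, i1, i2, i3, i4, i5, i6, hpO, χ, ?_⟩
  rw [RingHom.injective_iff_ker_eq_bot]
  apply Ideal.eq_bot_of_comap_eq_bot (R := ℤ)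
  rw [eq_bot_iff]
  intro n hn
  rw [Ideal.mem_comap, RingHom.mem_ker] at hn
  rw [Ideal.mem_bot]
  have h1 : ((n : ℤ) : O) = 0 := by simpa using hn
  exact_mod_cast h1

/-- **Strong multiplicity one** for finitely many exceptional good primes: two normalised
eigenforms (of possibly different levels) with `a_ℓ(g) = a_ℓ(h)` for almost all `ℓ` have
`a_ℓ(g) = a_ℓ(h)` for every `ℓ` prime to both levels. -/
theorem qCoeff_eq_of_ae
    (hD : ∀ (p : ℕ) [Fact p.Prime] (N : ℕ) [NeZero N] (S : Finset ℕ), p ∈ S →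
      (∀ q : ℕ, q.Prime → q ∣ N → q ∈ S) → Nonempty (HeckeGaloisModule p N (↑S : Set ℕ)))
    {M N : ℕ} [NeZero M] [NeZero N] {g : CuspForm (Gamma0 M) 2} {h : CuspForm (Gamma0 N) 2}
    (hg : g.IsNormalizedEigenform) (hh : h.IsNormalizedEigenform) (S : Finset ℕ)
    (hgh : ∀ ℓ : ℕ, ℓ.Prime → ¬ ℓ ∣ M → ¬ ℓ ∣ N → ℓ ∉ S → qCoeff g ℓ = qCoeff h ℓ)
    {ℓ : ℕ} (hℓ : ℓ.Prime) (hM : ¬ ℓ ∣ M) (hN : ¬ ℓ ∣ N) : qCoeff g ℓ = qCoeff h ℓ := by
  classical
  -- choose `p ≠ ℓ`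
  obtain ⟨p, hp, hpℓ⟩ : ∃ p : ℕ, p.Prime ∧ ℓ ≠ p := by
    by_cases h2 : ℓ = 2
    · exact ⟨3, Nat.prime_three, by omega⟩
    · exact ⟨2, Nat.prime_two, h2⟩
  have hpf : Fact p.Prime := ⟨hp⟩
  have hM0 : M ≠ 0 := NeZero.ne M
  have hN0 : N ≠ 0 := NeZero.ne N
  let S₁ : Finset ℕ := insert p (M.primeFactors)
  let S₂ : Finset ℕ := insert p (N.primeFactors)
  have hS₁ : ∀ q : ℕ, q.Prime → q ∣ M → q ∈ S₁ := fun q hq hqM =>
    Finset.mem_insert_of_mem (Nat.mem_primeFactors.mpr ⟨hq, hqM, hM0⟩)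
  have hS₂ : ∀ q : ℕ, q.Prime → q ∣ N → q ∈ S₂ := fun q hq hqN =>
    Finset.mem_insert_of_mem (Nat.mem_primeFactors.mpr ⟨hq, hqN, hN0⟩)
  have hS₁' : ∀ q : ℕ, q ≠ p → ¬ q ∣ M → q ∉ (↑S₁ : Set ℕ) := by
    intro q hqp hqM hq
    rcases Finset.mem_insert.mp (Finset.mem_coe.mp hq) with h1 | h1
    · exact hqp h1
    · exact hqM (Nat.dvd_of_mem_primeFactors h1)
  have hS₂' : ∀ q : ℕ, q ≠ p → ¬ q ∣ N → q ∉ (↑S₂ : Set ℕ) := by
    intro q hqp hqN hq
    rcases Finset.mem_insert.mp (Finset.mem_coe.mp hq) with h1 | h1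
    · exact hqp h1
    · exact hqN (Nat.dvd_of_mem_primeFactors h1)
  obtain ⟨D₁⟩ := hD p M S₁ (Finset.mem_insert_self _ _) hS₁
  obtain ⟨D₂⟩ := hD p N S₂ (Finset.mem_insert_self _ _) hS₂
  let χg : heckeAlgebra M 2 (↑S₁ : Set ℕ) →+* ℂ := eigenChar hg hS₁
  let χh : heckeAlgebra N 2 (↑S₂ : Set ℕ) →+* ℂ := eigenChar hh hS₂
  have hfin₁ := Period.finite_heckeAlgebra M 2 (↑S₁ : Set ℕ)
  have hfin₂ := Period.finite_heckeAlgebra N 2 (↑S₂ : Set ℕ)
  let π : heckeAlgebra M 2 (↑S₁ : Set ℕ) ⊗[ℤ] heckeAlgebra N 2 (↑S₂ : Set ℕ) →ₐ[ℤ] ℂ :=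
    Algebra.TensorProduct.productMap χg.toIntAlgHom χh.toIntAlgHom
  have hπ : ∀ s t, π (s ⊗ₜ t) = χg s * χh t := fun s t =>
    Algebra.TensorProduct.productMap_apply_tmul _ _ s t
  let R := π.range
  have hR : Module.Finite ℤ R :=
    Module.Finite.of_surjective π.rangeRestrict.toLinearMap π.rangeRestrict_surjective
  obtain ⟨O, i1, i2, i3, i4, i5, i6, hpO, χ, hχ⟩ := exists_point p R
  let χ₁ : heckeAlgebra M 2 (↑S₁ : Set ℕ) →+* O :=
    (χ.comp π.rangeRestrict.toRingHom).comp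
      (Algebra.TensorProduct.includeLeft : _ →ₐ[ℤ] _).toRingHom
  let χ₂ : heckeAlgebra N 2 (↑S₂ : Set ℕ) →+* O :=
    (χ.comp π.rangeRestrict.toRingHom).comp
      (Algebra.TensorProduct.includeRight : _ →ₐ[ℤ] _).toRingHom
  have e1 : ∀ s, χ₁ s = χ (π.rangeRestrict (s ⊗ₜ 1)) := fun s => rfl
  have e2 : ∀ t, χ₂ t = χ (π.rangeRestrict (1 ⊗ₜ t)) := fun t => rfl
  have hiff : ∀ s t, χ₁ s = χ₂ t ↔ χg s = χh t := by
    intro s t
    rw [e1, e2, hχ.eq_iff, Subtype.ext_iff]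
    have f1 : ((π.rangeRestrict (s ⊗ₜ 1) : R) : ℂ) = χg s := by
      show π (s ⊗ₜ 1) = _
      rw [hπ, map_one, mul_one]
    have f2 : ((π.rangeRestrict (1 ⊗ₜ t) : R) : ℂ) = χh t := by
      show π (1 ⊗ₜ t) = _
      rw [hπ, map_one, one_mul]
    rw [f1, f2]
  have key := char_eq_of_ae D₁ D₂ O hpO χ₁ χ₂
    (insert p (S ∪ M.primeFactors ∪ N.primeFactors)) (Finset.mem_insert_self _ _) ?_ ?_ ℓ hℓ hM hN
    (hS₁' ℓ hpℓ hM) (hS₂' ℓ hpℓ hN) hpℓ
  · rw [hiff, eigenChar_T, eigenChar_T] at key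
    exact key
  · intro q hq hqS
    simp only [Finset.mem_insert, Finset.mem_union, Nat.mem_primeFactors, not_or] at hqS
    obtain ⟨hqp, ⟨-, hqM⟩, hqN⟩ := hqS
    have hqM' : ¬ q ∣ M := fun h => hqM ⟨hq, h, hM0⟩
    have hqN' : ¬ q ∣ N := fun h => hqN ⟨hq, h, hN0⟩
    exact ⟨hqM', hqN', hS₁' q hqp hqM', hS₂' q hqp hqN'⟩
  · intro q hq hqM hqN h₁ h₂ hqS
    simp only [Finset.mem_insert, Finset.mem_union, not_or] at hqS
    rw [hiff, eigenChar_T, eigenChar_T]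
    exact hgh q hq hqM hqN hqS.2.1.1

end Fermat.Agent.NewPoint
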