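import Fermat.Agent.HGAssembly.Point

/-!
The lattice representation attached to a point of the Hecke algebra, with transport of polynomial
relations satisfied on the eigenspace.
-/

set_option autoImplicit false

open scoped TensorProduct
open Polynomial IsLocalRing

namespace Fermat.Agent.NewPoint

open Fermat.Agent.QuadRep Fermat.Agent.HGModule Fermat.Agent.HeckeGal Fermat.Agent.HGAssembly

local notation "G" => (AlgebraicClosure ℚ ≃ₐ[ℚ] AlgebraicClosure ℚ)

theorem incl_aeval_latAct {O O₂ E : Type} [CommRing O] [IsLocalRing O] [CommRing O₂]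
    [IsDomain O₂] [IsPrincipalIdealRing O₂] [IsLocalRing O₂] [Field E] [Algebra O O₂]
    [Algebra O E] [Algebra O₂ E] [IsScalarTower O O₂ E] {r : ℕ}
    (P : G →* Matrix (Fin r) (Fin r) O) (W : Submodule E (Fin r → E))
    (hW : ∀ g, ∀ w ∈ W, act P E g w ∈ W) (g : G) (F : ℤ[X]) (y : lat O₂ W) :
    incl O₂ E r ((aeval (latAct (O₂ := O₂) P W hW g) F y : lat O₂ W) : Fin r → O₂) =
      ((aeval (P g) F).map (algebraMap O E)).mulVec (incl O₂ E r (y : Fin r → O₂)) := by
  induction F using Polynomial.induction_on' with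
  | add p q hp hq =>
    rw [map_add, LinearMap.add_apply, Submodule.coe_add, map_add, hp, hq, map_add,
      Matrix.map_add _ (map_add _), Matrix.add_mulVec]
  | monomial n a =>
    have h1 : aeval (latAct (O₂ := O₂) P W hW g) (monomial n a) =
        a • latAct (O₂ := O₂) P W hW (g ^ n) := by
      rw [aeval_monomial, map_pow, ← Algebra.smul_def]
    have h2 : aeval (P g) (monomial n a) = a • P (g ^ n) := by
      rw [aeval_monomial, map_pow, ← Algebra.smul_def]
    rw [h1, h2, LinearMap.smul_apply]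
    have h4 : ((a • (latAct (O₂ := O₂) P W hW (g ^ n) y) : lat O₂ W) : Fin r → O₂) =
        a • ((latAct (O₂ := O₂) P W hW (g ^ n) y : lat O₂ W) : Fin r → O₂) :=
      map_zsmul (lat O₂ W).subtype a _
    rw [h4, map_zsmul]
    have h3 : (a • P (g ^ n)).map (algebraMap O E) = a • (P (g ^ n)).map (algebraMap O E) := by
      ext i j
      rw [Matrix.map_apply, Matrix.smul_apply, Matrix.smul_apply, map_zsmul, Matrix.map_apply]
    rw [h3, Matrix.smul_mulVec]
    congr 1
    rw [coe_latAct, ← act_incl P O₂ E]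
    rfl

section Main

variable {p : ℕ} [Fact p.Prime] {N : ℕ} [NeZero N] {S : Set ℕ} (D : HeckeGaloisModule p N S)
  (O : Type) [CommRing O] [IsDomain O] [IsDiscreteValuationRing O]
  [IsAdicComplete (maximalIdeal O) O] [CharZero O]

theorem exists_lattice_rep_rel (hp : (p : O) ∈ maximalIdeal O)
    (χ : CuspForm.heckeAlgebra N 2 S →+* O) :
    ∃ (Λ : Type) (_ : AddCommGroup Λ) (_ : Module O Λ) (_ : Module.Free O Λ)
      (_ : Module.Finite O Λ) (_ : Nontrivial Λ) (ρ : G →* Module.End O Λ),
      GaloisActionIsAdicContinuous O ρ ∧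
      (∀ (ℓ : ℕ) (hℓ : ℓ.Prime) (hℓN : ¬ ℓ ∣ N) (hℓS : ℓ ∉ S), ℓ ≠ p →
        ∀ A : ValuationSubring (AlgebraicClosure ℚ), A.LiesOverPrime ℓ → ∀ τ : G,
          A.IsFrobeniusAt τ ℓ → ρ τ ^ 2 - χ (CuspForm.heckeAlgebra.T hℓ hℓN hℓS) • ρ τ
            + (ℓ : O) • (1 : Module.End O Λ) = 0) ∧
      (∀ q : ℕ, q.Prime → ¬ q ∣ N → q ≠ p → ∀ A : ValuationSubring (AlgebraicClosure ℚ),
        A.LiesOverPrime q → ∀ σ ∈ A.inertiaSubgroupIn ℚ, ρ σ = 1) ∧
      (∃ (f : ℤ_[p] →+* FractionRing O), Function.Injective f ∧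
        ∀ (σ : G) (F : ℤ[X]), (∀ x : Fin (rk D) → FractionRing O,
          (∀ t, ((Q D t).map (Int.castRingHom (FractionRing O))).mulVec x =
            algebraMap O (FractionRing O) (χ t) • x) →
          ((aeval (P D σ) F).map f).mulVec x = 0) → aeval (ρ σ) F = 0) := by
  let K := FractionRing O
  have : CharZero K := charZero_field O K
  let _ : Algebra ℤ_[p] O := (padicHom p O hp).toAlgebra
  have htow : IsScalarTower ℤ_[p] O K := inferInstance
  have hloc : IsLocalHom (algebraMap ℤ_[p] O) := isLocalHom_of_natCast_mem hp _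
  have hinj : Function.Injective (algebraMap O K) := IsFractionRing.injective O K
  let χ' : CuspForm.heckeAlgebra N 2 S →+* K := (algebraMap O K).comp χ
  let W := eig D χ'
  have hmapK : ∀ t, (Q D t).map (Int.castRingHom K) =
      ((Q D t).map (algebraMap ℤ ℤ_[p])).map (algebraMap ℤ_[p] K) := by
    intro t
    ext i j
    simp
  have hmapO : ∀ t, (Q D t).map (Int.castRingHom O) =
      ((Q D t).map (algebraMap ℤ ℤ_[p])).map (algebraMap ℤ_[p] O) := by
    intro t
    ext i j
    simp
  have hW : ∀ g, ∀ w ∈ W, act (P D) K g w ∈ W := by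
    intro g w hw
    rw [mem_eig]
    intro t
    have hw' := hw t
    rw [act_apply, Matrix.mulVec_mulVec, hmapK, ← Matrix.map_mul, Q_commute, Matrix.map_mul,
      ← hmapK, ← Matrix.mulVec_mulVec, hw', Matrix.mulVec_smul]
  -- the lattice is nonzero
  have hnt : Nontrivial (lat O W) := by
    obtain ⟨w, hw0, hw⟩ := exists_eigenvector (Q D) (Q_injective D) χ'
    obtain ⟨d, hd⟩ := IsLocalization.exist_integer_multiples_of_finite (nonZeroDivisors O) w
    choose z hz using hd
    have hd0 : algebraMap O K d ≠ 0 := by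
      intro h
      exact nonZeroDivisors.coe_ne_zero d (hinj (by rw [h, map_zero]))
    have hz' : incl O K (rk D) z = algebraMap O K d • w := by
      ext j
      rw [incl_apply, hz j, Algebra.smul_def]
      rfl
    have hzW : z ∈ lat O W := by
      change incl O K (rk D) z ∈ W
      rw [hz']
      exact W.smul_mem _ hw
    have hz0 : z ≠ 0 := by
      rintro rfl
      rw [map_zero] at hz'
      exact (smul_ne_zero hd0 hw0) hz'.symm
    exact ⟨⟨⟨z, hzW⟩, 0, fun h => hz0 (congrArg Subtype.val h)⟩⟩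
  -- Hecke operators on the lattice
  have hlat : ∀ (x : Fin (rk D) → O), x ∈ lat O W → ∀ t,
      ((Q D t).map (Int.castRingHom O)).mulVec x = χ t • x := by
    intro x hx t
    have h1 := hx t
    ext i
    apply hinj
    have h2 := congrFun h1 i
    simp only [Matrix.mulVec, dotProduct, Matrix.map_apply, incl_apply, Pi.smul_apply, smul_eq_mul,
      map_sum, map_mul] at h2 ⊢
    rw [← show χ' t = algebraMap O K (χ t) from rfl, ← h2]
    simp
  refine ⟨lat O W, inferInstance, inferInstance, inferInstance, inferInstance, hnt,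
    latAct (P D) W hW, latAct_continuous (P D) hinj (P_continuous D) W hW, ?_, ?_, ?_⟩
  · intro ℓ hℓ hℓN hℓS hℓp A hA τ hτ
    refine LinearMap.ext fun m => Subtype.ext ?_
    have h1 := P_frobenius D ℓ hℓ hℓN hℓS hℓp A hA τ hτ
    set t := CuspForm.heckeAlgebra.T (k := 2) hℓ hℓN hℓS with ht
    have h2 := congrArg (fun M : Matrix (Fin (rk D)) (Fin (rk D)) ℤ_[p] =>
      (M.map (algebraMap ℤ_[p] O)).mulVec (m : Fin (rk D) → O)) h1
    have h3 := hlat _ (latAct (P D) W hW τ m).2 t
    rw [coe_latAct, act_apply] at h3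
    have h4 : (P D τ * P D τ - (Q D t).map (algebraMap ℤ ℤ_[p]) * P D τ
        + (ℓ : ℤ_[p]) • (1 : Matrix (Fin (rk D)) (Fin (rk D)) ℤ_[p])).map (algebraMap ℤ_[p] O) =
        (P D τ).map (algebraMap ℤ_[p] O) * (P D τ).map (algebraMap ℤ_[p] O) -
        (Q D t).map (Int.castRingHom O) * (P D τ).map (algebraMap ℤ_[p] O) +
        (ℓ : O) • (1 : Matrix (Fin (rk D)) (Fin (rk D)) O) := by
      rw [Matrix.map_add _ (map_add _), Matrix.map_sub _ (map_sub _), Matrix.map_mul,
        Matrix.map_mul, ← hmapO]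
      congr 1
      ext i j
      rw [Matrix.map_apply, Matrix.smul_apply, Matrix.smul_apply, smul_eq_mul, smul_eq_mul,
        map_mul, map_natCast, Matrix.one_apply, Matrix.one_apply]
      split_ifs <;> simp
    simp only [h4] at h2
    rw [Matrix.add_mulVec, Matrix.sub_mulVec, ← Matrix.mulVec_mulVec, ← Matrix.mulVec_mulVec, h3,
      Matrix.smul_mulVec, Matrix.one_mulVec, Matrix.map_zero _ (map_zero _),
      Matrix.zero_mulVec] at h2
    rw [sq]
    exact h2
  · intro q hq hqN hqp A hA σ hσ
    refine LinearMap.ext fun m => Subtype.ext ?_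
    rw [coe_latAct, act_apply, P_unramified D q hq hqN hqp A hA σ hσ,
      Matrix.map_one _ (map_zero _) (map_one _), Matrix.one_mulVec]
    rfl
  · refine ⟨algebraMap ℤ_[p] K, ?_, ?_⟩
    · rw [injective_iff_map_eq_zero]
      intro x hx
      by_contra hx0
      rw [PadicInt.unitCoeff_spec hx0, map_mul, map_pow, map_natCast] at hx
      rcases mul_eq_zero.mp hx with h1 | h1
      · exact ((PadicInt.unitCoeff hx0).isUnit.map (algebraMap ℤ_[p] K)).ne_zero h1
      · have h2 : (p : K) = 0 := pow_eq_zero_iff (M₀ := K) (n := (x.valuation)) (by rintro h0; rw [h0, pow_zero] at h1; exact one_ne_zero h1) |>.mp h1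
        exact (Nat.cast_ne_zero.mpr (Fact.out : p.Prime).ne_zero) h2
    intro σ F hF
    refine LinearMap.ext fun y => Subtype.ext ?_
    have hinj' : Function.Injective (incl O K (rk D)) := by
      intro a b hab
      ext i
      apply hinj
      exact congrFun hab i
    apply hinj'
    rw [incl_aeval_latAct]
    rw [hF _ (fun t => y.2 t)]
    simp

end Main

end Fermat.Agent.NewPoint
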