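import Fermat.Agent.HGAssembly.Point
import Fermat.Agent.Frob.Exists
import Fermat.Agent.HGModule.S30Wiring

/-!
Strong multiplicity one for finitely many exceptional good primes, from Galois representations.
-/

set_option autoImplicit false

open scoped TensorProduct
open Polynomial IsLocalRing

namespace Fermat.Agent.NewPoint

open Fermat.Agent.QuadRep Fermat.Agent.HGModule Fermat.Agent.HeckeGal Fermat.Agent.HGAssembly

local notation "G" => (AlgebraicClosure ℚ ≃ₐ[ℚ] AlgebraicClosure ℚ)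

section Prod

variable {O : Type} [CommRing O] {Λ₁ Λ₂ : Type} [AddCommGroup Λ₁]
  [AddCommGroup Λ₂] [Module O Λ₁] [Module O Λ₂]

/-- the sum of two representations -/
noncomputable def prodRep (ρ₁ : G →* Module.End O Λ₁) (ρ₂ : G →* Module.End O Λ₂) :
    G →* Module.End O (Λ₁ × Λ₂) where
  toFun σ := (ρ₁ σ).prodMap (ρ₂ σ)
  map_one' := by
    rw [map_one, map_one]
    rfl
  map_mul' σ τ := by
    rw [map_mul, map_mul]
    rfl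

theorem prodRep_apply (ρ₁ : G →* Module.End O Λ₁) (ρ₂ : G →* Module.End O Λ₂) (σ : G)
    (x : Λ₁ × Λ₂) : prodRep ρ₁ ρ₂ σ x = (ρ₁ σ x.1, ρ₂ σ x.2) := rfl

theorem prod_mem_smul (I : Ideal O) {x : Λ₁ × Λ₂} (h1 : x.1 ∈ I • (⊤ : Submodule O Λ₁))
    (h2 : x.2 ∈ I • (⊤ : Submodule O Λ₂)) : x ∈ I • (⊤ : Submodule O (Λ₁ × Λ₂)) := by
  have e : x = LinearMap.inl O Λ₁ Λ₂ x.1 + LinearMap.inr O Λ₁ Λ₂ x.2 := by
    ext <;> simp
  rw [e]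
  refine add_mem ?_ ?_
  · have h3 := Submodule.mem_map_of_mem (f := LinearMap.inl O Λ₁ Λ₂) h1
    rw [Submodule.map_smul''] at h3
    exact Submodule.smul_mono le_rfl le_top h3
  · have h3 := Submodule.mem_map_of_mem (f := LinearMap.inr O Λ₁ Λ₂) h2
    rw [Submodule.map_smul''] at h3
    exact Submodule.smul_mono le_rfl le_top h3

theorem prodRep_continuous [IsLocalRing O] (ρ₁ : G →* Module.End O Λ₁) (ρ₂ : G →* Module.End O Λ₂)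
    (h₁ : GaloisActionIsAdicContinuous O ρ₁) (h₂ : GaloisActionIsAdicContinuous O ρ₂) :
    GaloisActionIsAdicContinuous O (prodRep ρ₁ ρ₂) := by
  intro n
  obtain ⟨L₁, hL₁, h₁⟩ := h₁ n
  obtain ⟨L₂, hL₂, h₂⟩ := h₂ n
  refine ⟨L₁ ⊔ L₂, IntermediateField.finiteDimensional_sup L₁ L₂, fun σ hσ v => ?_⟩
  refine prod_mem_smul _ ?_ ?_
  · exact h₁ σ (fun x hx => hσ x (le_sup_left (b := L₂) hx)) v.1
  · exact h₂ σ (fun x hx => hσ x (le_sup_right (a := L₁) hx)) v.2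

end Prod

section Scalar

theorem scalar_injective {O Λ : Type*} [CommRing O] [IsDomain O] [AddCommGroup Λ]
    [Module O Λ] [Module.Free O Λ] [Module.Finite O Λ] [Nontrivial Λ] {a b : O}
    (h : a • (1 : Module.End O Λ) = b • 1) : a = b := by
  let b' := Module.finBasis O Λ
  have hr : 0 < Module.finrank O Λ := Module.finrank_pos
  have h7 := congrArg (fun f : Module.End O Λ => b'.repr (f (b' ⟨0, hr⟩)) ⟨0, hr⟩) h
  simpa using h7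

end Scalar

variable {p : ℕ} [Fact p.Prime] {M N : ℕ} [NeZero M] [NeZero N] {S₁ S₂ : Set ℕ}
  (D₁ : HeckeGaloisModule p M S₁) (D₂ : HeckeGaloisModule p N S₂)
  (O : Type) [CommRing O] [IsDomain O] [IsDiscreteValuationRing O]
  [IsAdicComplete (maximalIdeal O) O] [CharZero O]

include D₁ D₂ in
/-- **Strong multiplicity one** for finitely many exceptional good primes, `O`-valued points. -/
theorem char_eq_of_ae (hp : (p : O) ∈ maximalIdeal O)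
    (χ₁ : CuspForm.heckeAlgebra M 2 S₁ →+* O) (χ₂ : CuspForm.heckeAlgebra N 2 S₂ →+* O)
    (S : Finset ℕ) (hpS : p ∈ S)
    (hS : ∀ ℓ : ℕ, ℓ.Prime → ℓ ∉ S → ¬ ℓ ∣ M ∧ ¬ ℓ ∣ N ∧ ℓ ∉ S₁ ∧ ℓ ∉ S₂)
    (h : ∀ (ℓ : ℕ) (hℓ : ℓ.Prime) (hM : ¬ ℓ ∣ M) (hN : ¬ ℓ ∣ N) (h₁ : ℓ ∉ S₁) (h₂ : ℓ ∉ S₂),
      ℓ ∉ S → χ₁ (CuspForm.heckeAlgebra.T hℓ hM h₁) = χ₂ (CuspForm.heckeAlgebra.T hℓ hN h₂))
    (ℓ : ℕ) (hℓ : ℓ.Prime) (hM : ¬ ℓ ∣ M) (hN : ¬ ℓ ∣ N) (h₁ : ℓ ∉ S₁) (h₂ : ℓ ∉ S₂)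
    (hℓp : ℓ ≠ p) :
    χ₁ (CuspForm.heckeAlgebra.T hℓ hM h₁) = χ₂ (CuspForm.heckeAlgebra.T hℓ hN h₂) := by
  classical
  obtain ⟨Λ₁, i1, i2, i3, i4, i5, ρ₁, hcont₁, hfrob₁, -, -⟩ :=
    exists_lattice_rep_strong D₁ O hp χ₁
  obtain ⟨Λ₂, j1, j2, j3, j4, j5, ρ₂, hcont₂, hfrob₂, -, -⟩ :=
    exists_lattice_rep_strong D₂ O hp χ₂
  let a : ℕ → O := fun ℓ => if h : ℓ.Prime ∧ ¬ ℓ ∣ M ∧ ℓ ∉ S₁ then
    χ₁ (CuspForm.heckeAlgebra.T h.1 h.2.1 h.2.2) else 0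
  have ha : ∀ (ℓ : ℕ) (hℓ : ℓ.Prime) (hℓN : ¬ ℓ ∣ M) (hℓS : ℓ ∉ S₁),
      a ℓ = χ₁ (CuspForm.heckeAlgebra.T hℓ hℓN hℓS) := fun ℓ hℓ hℓN hℓS =>
    dif_pos ⟨hℓ, hℓN, hℓS⟩
  have hquad := exists_quad_relation hp (prodRep ρ₁ ρ₂) (prodRep_continuous ρ₁ ρ₂ hcont₁ hcont₂)
    S hpS a (by
      intro ℓ hℓ hℓS A hA τ hτ
      obtain ⟨hM', hN', h₁', h₂'⟩ := hS ℓ hℓ hℓS
      have hℓp : ℓ ≠ p := fun e => hℓS (e ▸ hpS)
      have e1 := hfrob₁ ℓ hℓ hM' h₁' hℓp A hA τ hτ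
      have e2 := hfrob₂ ℓ hℓ hN' h₂' hℓp A hA τ hτ
      rw [← h ℓ hℓ hM' hN' h₁' h₂' hℓS] at e2
      rw [ha ℓ hℓ hM' h₁']
      refine LinearMap.ext fun x => ?_
      have f1 := LinearMap.congr_fun e1 x.1
      have f2 := LinearMap.congr_fun e2 x.2
      exact Prod.ext f1 f2)
  obtain ⟨A, hA⟩ := Fermat.Agent.Frob.exists_liesOverPrime (AlgebraicClosure ℚ) hℓ
  obtain ⟨σ, hσ⟩ := Fermat.Agent.Frob.exists_isFrobeniusAt hℓ hA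
  obtain ⟨c, hc⟩ := hquad σ
  have hcyc := cyc_frobenius (O := O) hp hℓ hℓp hA hσ
  have g1 := quad_inv ρ₁ σ _ _ (hfrob₁ ℓ hℓ hM h₁ hℓp A hA σ hσ)
  have g2 := quad_inv ρ₂ σ _ _ (hfrob₂ ℓ hℓ hN h₂ hℓp A hA σ hσ)
  rw [hcyc] at hc
  have c1 : c • (1 : Module.End O Λ₁) = χ₁ (CuspForm.heckeAlgebra.T hℓ hM h₁) • 1 := by
    rw [← g1]
    refine LinearMap.ext fun x => ?_
    have := congrArg Prod.fst (LinearMap.congr_fun hc (x, 0))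
    exact this.symm
  have c2 : c • (1 : Module.End O Λ₂) = χ₂ (CuspForm.heckeAlgebra.T hℓ hN h₂) • 1 := by
    rw [← g2]
    refine LinearMap.ext fun x => ?_
    have := congrArg Prod.snd (LinearMap.congr_fun hc (0, x))
    exact this.symm
  rw [← scalar_injective c1, ← scalar_injective c2]

end Fermat.Agent.NewPoint
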